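import Mathlib
import Fermat.Agent.GE8.P3.GB.B3.StepInst
import Fermat.Agent.GE8.P3.Ok3

/- TWIN (helper24, GE8/P3 generator) of `Fermat.Agent.GB.B3.Tower` with `p ≠ 3` relaxed to `Ok3 p N`; everything below lives in the wrapper namespace `Fermat.Agent.GE8.P3`. -/
set_option linter.dupNamespace false
open Fermat Fermat.Agent Fermat.Agent.GB Fermat.Agent.GB.B3 Fermat.Agent.GB.B3.EisGamma0 Fermat.Agent.GB.B3.HeckeActH Fermat.Agent.GB.B3.RealLevel Fermat.Agent.GB.B3.TWLevel Fermat.Agent.GM Fermat.Agent.GM.B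

namespace Fermat.Agent.GE8.P3

/-!
GATE-B / B3 (helper95): **the Taylor–Wiles tower**, by induction on the number of cyclic steps.

Data: characters `ψ i : (ZMod N)ˣ →* Δs i` (`i : ℕ`), `Δs i` cyclic of order `p ^ n i` generated by
`ψ i (d mod N)` of `dd i ∈ Γ₀(N)`, with `ψ i (dd j) = 1` for `i ≠ j` and `ψ i (-1) = 1`.

* `Theta Δs ψ j : (ZMod N)ˣ →* ∀ i : Fin j, Δs i` — the product of the first `j` characters; the
  stage `j` of the tower is `GammaH (Theta Δs ψ j)`; `initHom Δs j` forgets the last coordinate,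
  `initHom_comp_Theta : (initHom Δs j).comp (Theta Δs ψ (j + 1)) = Theta Δs ψ j` is `rfl`;
* `Nfun p n j`, `dfun dd j` : the orders and the diamond elements of stage `j`, the NEWEST in front
  (index `0`), as in `TowerStep.StepData.extend`;
* `exists_tower` : a level with no diamonds realised in `Hom(GammaH (Theta 0), O)_𝔪` extends, for
  every `j`, to a `FreeLevel` with `j` diamonds `⟨dfun dd j i⟩` of orders `Nfun p n j i` realised in
  `Hom(GammaH (Theta j), O)_𝔪` — i.e. `Hom(Γ_H(Q), O)_𝔪` is free over `O[Δ_Q]` with coinvariants the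
  base level.
-/

set_option autoImplicit false
set_option linter.unusedSectionVars false
set_option linter.style.haveILetI false

open scoped MatrixGroups
open CongruenceSubgroup

namespace GB.B3.Tower

open GM.B GB.B3 GB.B3.EisGamma0
  GB.B3.TWLevel GB.B3.RealLevel GB.B3.HeckeActH
  GB.B3.StepInst

variable {N : ℕ} (Δs : ℕ → Type) [∀ i, CommGroup (Δs i)] (ψ : ∀ i, (ZMod N)ˣ →* Δs i)

/-- the product of the first `j` characters -/
def Theta (j : ℕ) : (ZMod N)ˣ →* (∀ i : Fin j, Δs i) := MonoidHom.pi fun i => ψ i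

theorem Theta_apply (j : ℕ) (u : (ZMod N)ˣ) (i : Fin j) : Theta Δs ψ j u i = ψ i u := rfl

/-- forgetting the last coordinate -/
def initHom (j : ℕ) : (∀ i : Fin (j + 1), Δs i) →* (∀ i : Fin j, Δs i) where
  toFun f i := f (Fin.castSucc i)
  map_one' := rfl
  map_mul' _ _ := rfl

theorem initHom_comp_Theta (j : ℕ) : (initHom Δs j).comp (Theta Δs ψ (j + 1)) = Theta Δs ψ j := rfl

/-- the kernel of `initHom` is the last factor -/
def kerEquiv (j : ℕ) : (initHom Δs j).ker ≃ Δs j where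
  toFun δ := δ.1 (Fin.last j)
  invFun g := ⟨Fin.snoc (α := fun i : Fin (j + 1) => Δs i) (fun _ => 1) g, by
    rw [MonoidHom.mem_ker]
    funext i
    show Fin.snoc (α := fun i : Fin (j + 1) => Δs i) (fun _ => 1) g (Fin.castSucc i) = 1
    rw [Fin.snoc_castSucc]⟩
  left_inv δ := by
    apply Subtype.ext
    funext i
    refine Fin.lastCases ?_ (fun i' => ?_) i
    · show Fin.snoc (α := fun i : Fin (j + 1) => Δs i) (fun _ => 1) (δ.1 (Fin.last j))
        (Fin.last j) = _
      rw [Fin.snoc_last]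
    · show Fin.snoc (α := fun i : Fin (j + 1) => Δs i) (fun _ => 1) (δ.1 (Fin.last j))
        (Fin.castSucc i') = _
      rw [Fin.snoc_castSucc]
      have h := δ.2
      rw [MonoidHom.mem_ker] at h
      exact (congrFun h i').symm
  right_inv g := by
    show Fin.snoc (α := fun i : Fin (j + 1) => Δs i) (fun _ => 1) g (Fin.last j) = g
    rw [Fin.snoc_last]

/-- the orders of the diamonds of stage `j`, the newest in front -/
def Nfun (p : ℕ) (n : ℕ → ℕ) : (j : ℕ) → Fin j → ℕ
  | 0 => Fin.elim0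
  | j + 1 => Fin.cons (p ^ n j) (Nfun p n j)

/-- the diamond elements of stage `j`, the newest in front -/
def dfun (dd : ℕ → Gamma0 N) : (j : ℕ) → Fin j → Gamma0 N
  | 0 => Fin.elim0
  | j + 1 => Fin.cons (dd j) (dfun dd j)

theorem Nfun_succ (p : ℕ) (n : ℕ → ℕ) (j : ℕ) :
    Nfun p n (j + 1) = Fin.cons (p ^ n j) (Nfun p n j) := rfl

theorem dfun_succ (dd : ℕ → Gamma0 N) (j : ℕ) :
    dfun dd (j + 1) = Fin.cons (dd j) (dfun dd j) := rfl

theorem Nfun_apply (p : ℕ) (n : ℕ → ℕ) (j : ℕ) (i : Fin j) :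
    Nfun p n j i = p ^ n (j - 1 - i) := by
  induction j with
  | zero => exact i.elim0
  | succ j ih =>
    rw [Nfun_succ]
    refine Fin.cases ?_ (fun i' => ?_) i
    · rw [Fin.cons_zero]
      simp
    · rw [Fin.cons_succ, ih]
      congr 2
      rw [Fin.val_succ]
      omega

theorem dfun_apply (dd : ℕ → Gamma0 N) (j : ℕ) (i : Fin j) :
    dfun dd j i = dd (j - 1 - i) := by
  induction j with
  | zero => exact i.elim0
  | succ j ih =>
    rw [dfun_succ]
    refine Fin.cases ?_ (fun i' => ?_) i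
    · rw [Fin.cons_zero]
      simp
    · rw [Fin.cons_succ, ih]
      congr 1
      rw [Fin.val_succ]
      omega

section Main

variable [NeZero N] (Sy : Symbols N)
variable {O : Type} [CommRing O] [IsDomain O] [IsPrincipalIdealRing O] [IsLocalRing O]
  [IsAdicComplete (IsLocalRing.maximalIdeal O) O] [Module.IsTorsionFree ℤ O]
variable (𝔪 : Ideal (Sy.𝕋 O)) [𝔪.IsMaximal]
variable {M0 : Type} [AddCommGroup M0] [Module O M0] {act0 : Sy.𝕋 O →ₐ[O] Module.End O M0}
variable [∀ i, Fintype (Δs i)]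

theorem not_dvd_prime_pow {p : ℕ} (hp : p.Prime) {a : ℕ} (ha : a.Prime) (hne : p ≠ a) (n : ℕ) :
    ¬ a ∣ p ^ n := by
  intro h
  have h1 := ha.dvd_of_dvd_pow h
  exact hne ((Nat.prime_dvd_prime_iff_eq ha hp).1 h1).symm

/-- **the Taylor–Wiles tower** -/
theorem exists_tower
    (ϖ : O) (hϖ0 : ϖ ≠ 0) (hmax : IsLocalRing.maximalIdeal O = Ideal.span {ϖ})
    (p : ℕ) (hp : p.Prime) (hpϖ : (p : O) ∈ Ideal.span {ϖ}) (hp0 : (p : O) ≠ 0)
    (hp2 : p ≠ 2) (hp3 : Ok3 p N) (n : ℕ → ℕ) (dd : ℕ → Gamma0 N)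
    (hcard : ∀ i, Fintype.card (Δs i) = p ^ n i)
    (hord : ∀ i, orderOf (ψ i (dUnits N (dd i))) = p ^ n i)
    (hoff : ∀ i j, i ≠ j → ψ i (dUnits N (dd j)) = 1)
    (hneg : ∀ i, ψ i (-1) = 1)
    (s0 : Sy.ι₁) (hτ : tauOf Sy O s0 ∉ 𝔪)
    (F0 : FreeLevel O (Sy.𝕋 O) M0 act0 0 Fin.elim0)
    (R0 : Realizes F0 (actH Sy O (Theta Δs ψ 0)) 𝔪 (fun i => i.elim0)) (j : ℕ) :
    ∃ F : FreeLevel O (Sy.𝕋 O) M0 act0 j (Nfun p n j),
      Nonempty (Realizes F (actH Sy O (Theta Δs ψ j)) 𝔪
        (fun i => diaLin O (Theta Δs ψ j) (dfun dd j i))) := by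
  induction j with
  | zero =>
    refine ⟨F0, ⟨?_⟩⟩
    have e : (fun i : Fin 0 => diaLin O (Theta Δs ψ 0) (dfun dd 0 i))
        = fun i => i.elim0 := Subsingleton.elim _ _
    rw [e]
    exact R0
  | succ j ih =>
    obtain ⟨F, ⟨R⟩⟩ := ih
    haveI : Fintype (initHom Δs j).ker := Fintype.ofEquiv (Δs j) (kerEquiv Δs j).symm
    have hcardk : Fintype.card (initHom Δs j).ker = p ^ n j := by
      rw [Fintype.card_congr (kerEquiv Δs j), hcard]
    -- the generator
    have hval : ∀ (m : ℕ) (i : Fin (j + 1)),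
        chi (Theta Δs ψ (j + 1)) (dd m) i = ψ i (dUnits N (dd m)) := fun m i => rfl
    have hd0 : chi (Theta Δs ψ (j + 1)) (dd j) ∈ (initHom Δs j).ker := by
      rw [MonoidHom.mem_ker]
      funext i
      show chi (Theta Δs ψ (j + 1)) (dd j) (Fin.castSucc i) = 1
      rw [hval]
      exact hoff _ _ (by rw [Fin.val_castSucc]; exact Nat.ne_of_lt i.2)
    have hordj : orderOf (chi (Theta Δs ψ (j + 1)) (dd j)) = p ^ n j := by
      rw [← hord j]
      refine orderOf_eq_orderOf_iff.2 fun m => ?_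
      constructor
      · intro h
        have h1 := congrFun h (Fin.last j)
        rw [Pi.pow_apply, hval] at h1
        exact h1
      · intro h
        funext i
        rw [Pi.pow_apply, hval, Pi.one_apply]
        refine Fin.lastCases ?_ (fun i' => ?_) i
        · exact h
        · rw [hoff _ _ (by rw [Fin.val_castSucc]; exact Nat.ne_of_lt i'.2), one_pow]
    have hnegj : Theta Δs ψ (j + 1) (-1) = 1 := by
      funext i
      exact hneg i
    have hq : ((p ^ n j : ℕ) : O) ≠ 0 := by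
      rw [Nat.cast_pow]
      exact pow_ne_zero _ hp0
    have hdpow : ∀ i : Fin j,
        chi (Theta Δs ψ (j + 1)) (dfun dd j i ^ Nfun p n j i) = 1 := by
      intro i
      rw [map_pow, dfun_apply, Nfun_apply]
      funext i'
      rw [Pi.pow_apply, hval, Pi.one_apply]
      by_cases h : (i' : ℕ) = j - 1 - i
      · rw [← h, ← hord, pow_orderOf_eq_one]
      · rw [hoff _ _ h, one_pow]
    exact exists_step_inst' Sy 𝔪 F (Theta Δs ψ (j + 1)) (initHom Δs j) (dd j) hd0 ϖ hϖ0 hmax p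
      (n j) hp hpϖ hq hordj hcardk hnegj (not_dvd_prime_pow hp Nat.prime_two hp2 _)
      (Ok3.step hp hp3 _) s0 hτ (dfun dd j) hdpow R

end Main

end GB.B3.Tower
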