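import Mathlib
import Fermat.Agent.GE8.P3.GB.B3.Tower
import Fermat.Agent.GB.B3.Base
import Fermat.Agent.GB.B3.ChiLevelSelf
import Fermat.Agent.GE8.P3.Ok3

/- TWIN (helper24, GE8/P3 generator) of `Fermat.Agent.GB.B3.Final` with `p ≠ 3` relaxed to `Ok3 p N`; everything below lives in the wrapper namespace `Fermat.Agent.GE8.P3`. -/
set_option linter.dupNamespace false
open Fermat Fermat.Agent Fermat.Agent.GB Fermat.Agent.GB.B3 Fermat.Agent.GB.B3.Base Fermat.Agent.GB.B3.ChiLevel Fermat.Agent.GB.B3.EisGamma0 Fermat.Agent.GB.B3.HeckeActH Fermat.Agent.GB.B3.RealLevel Fermat.Agent.GB.B3.TWLevel Fermat.Agent.GM Fermat.Agent.GM.B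

namespace Fermat.Agent.GE8.P3

/-!
GATE-B / B3 (helper95): **the output of B3 AUT-COH**.

For Hecke symbols `Sy : Symbols N`, a complete discrete valuation ring `O` (in the form: local
principal ideal domain, adically complete, `ℤ`-torsion free), a maximal ideal `𝔪` of the polynomial
algebra `Sy.𝕋 O` which is NOT Eisenstein (`tauOf Sy O s0 = T_ℓ - (ℓ + 1) ∉ 𝔪` for one good prime)
and a tower of cyclic characters `ψ i` of `(ZMod N)ˣ` of `p`-power orders (`Tower.exists_tower`):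

* `M0 Sy 𝔪 Δs ψ := Hom(GammaH (Theta 0), O)_𝔪`, `act0` — the base level (`Base.locSub`);
* `exists_bigLevel` : for every `j` there is a `FreeLevel` over `M0` with `j` diamonds
  `⟨dfun dd j i⟩` of orders `Nfun p n j i`, realised as `Hom(GammaH (Theta j), O)_𝔪`;
* `exists_twLevelData` : with the `q`-step LAST (`j = k + 1`, index `0` = the diamond at `q`) and
  `c ≡ 1 mod ϖ` a root of unity of order dividing `p ^ n k`: helper24's `twLevelDataSelf` of the big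
  level — the `TWLevelData` consumed by B9 (`GB/B9/ModOfTW.TWInput.tw`).
-/

set_option autoImplicit false
set_option linter.unusedSectionVars false
set_option linter.style.haveILetI false

open scoped MatrixGroups
open CongruenceSubgroup

namespace GB.B3.Final

open GM.B GB.B3 GB.B3.EisGamma0
  GB.B3.TWLevel GB.B3.RealLevel GB.B3.HeckeActH
  GB.B3.StepInst GB.B3.Tower GB.B3.Base
  GB.B3.ChiLevel

variable {N : ℕ} [NeZero N] (Sy : Symbols N)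
variable {O : Type} [CommRing O] [IsDomain O] [IsPrincipalIdealRing O] [IsLocalRing O]
  [IsAdicComplete (IsLocalRing.maximalIdeal O) O] [Module.IsTorsionFree ℤ O]
variable (𝔪 : Ideal (Sy.𝕋 O)) [𝔪.IsMaximal]
variable (Δs : ℕ → Type) [∀ i, CommGroup (Δs i)] [∀ i, Fintype (Δs i)]
  (ψ : ∀ i, (ZMod N)ˣ →* Δs i)

/-- the base module `Hom(GammaH (Theta 0), O)_𝔪` (`GammaH (Theta 0) = Γ₀(N)` as a set) -/
abbrev M0 : Type := Base.locSub (actH Sy O (Theta Δs ψ 0)) 𝔪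

/-- the Hecke action on the base module -/
noncomputable abbrev act0 : Sy.𝕋 O →ₐ[O] Module.End O (M0 Sy 𝔪 Δs ψ) :=
  Base.locSubAct (actH Sy O (Theta Δs ψ 0)) 𝔪

/-- **the big Taylor–Wiles level** -/
theorem exists_bigLevel
    (ϖ : O) (hϖ0 : ϖ ≠ 0) (hmax : IsLocalRing.maximalIdeal O = Ideal.span {ϖ})
    (p : ℕ) (hp : p.Prime) (hpϖ : (p : O) ∈ Ideal.span {ϖ}) (hp0 : (p : O) ≠ 0)
    (hp2 : p ≠ 2) (hp3 : Ok3 p N) (n : ℕ → ℕ) (dd : ℕ → Gamma0 N)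
    (hcard : ∀ i, Fintype.card (Δs i) = p ^ n i)
    (hord : ∀ i, orderOf (ψ i (dUnits N (dd i))) = p ^ n i)
    (hoff : ∀ i j, i ≠ j → ψ i (dUnits N (dd j)) = 1)
    (hneg : ∀ i, ψ i (-1) = 1)
    (s0 : Sy.ι₁) (hτ : tauOf Sy O s0 ∉ 𝔪) (j : ℕ) :
    ∃ B : FreeLevel O (Sy.𝕋 O) (M0 Sy 𝔪 Δs ψ) (act0 Sy 𝔪 Δs ψ) j (Nfun p n j),
      Nonempty (Realizes B (actH Sy O (Theta Δs ψ j)) 𝔪
        (fun i => diaLin O (Theta Δs ψ j) (dfun dd j i))) := by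
  haveI : (GamH.GammaH (Theta Δs ψ 0)).FiniteIndex := finiteIndex_GammaH _
  haveI : Module.Finite O (Additive (GamH.GammaH (Theta Δs ψ 0)) →+ O) :=
    HomFree.homFinite_SL2Z _ O
  haveI : Module.Free O (Additive (GamH.GammaH (Theta Δs ψ 0)) →+ O) :=
    HomFree.homFree_SL2Z _ O
  obtain ⟨d, ⟨b0⟩⟩ := Base.exists_basis_locSub (actH Sy O (Theta Δs ψ 0)) 𝔪
  exact exists_tower Δs ψ Sy 𝔪 ϖ hϖ0 hmax p hp hpϖ hp0 hp2 hp3 n dd hcard hord hoff hneg s0 hτ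
    (Base.baseLevel _ 𝔪 b0) (Base.realizesBase _ 𝔪 b0) j

theorem Nfun_pos {p : ℕ} (hp : p.Prime) (n : ℕ → ℕ) (j : ℕ) (i : Fin j) : 0 < Nfun p n j i := by
  rw [Nfun_apply]
  exact pow_pos hp.pos _

/-- **the B3 package at one Taylor–Wiles set** (`k` Taylor–Wiles primes, then the `q`-step) -/
theorem exists_twLevelData
    (ϖ : O) (hϖ0 : ϖ ≠ 0) (hmax : IsLocalRing.maximalIdeal O = Ideal.span {ϖ})
    (p : ℕ) (hp : p.Prime) (hpϖ : (p : O) ∈ Ideal.span {ϖ}) (hp0 : (p : O) ≠ 0)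
    (hp2 : p ≠ 2) (hp3 : Ok3 p N) (n : ℕ → ℕ) (dd : ℕ → Gamma0 N)
    (hcard : ∀ i, Fintype.card (Δs i) = p ^ n i)
    (hord : ∀ i, orderOf (ψ i (dUnits N (dd i))) = p ^ n i)
    (hoff : ∀ i j, i ≠ j → ψ i (dUnits N (dd j)) = 1)
    (hneg : ∀ i, ψ i (-1) = 1)
    (s0 : Sy.ι₁) (hτ : tauOf Sy O s0 ∉ 𝔪) (k : ℕ)
    (c : O) (hc : c ^ p ^ n k = 1) (hc1 : (1 : O) - c ∈ Ideal.span {ϖ}) :
    ∃ (B : FreeLevel O (Sy.𝕋 O) (M0 Sy 𝔪 Δs ψ) (act0 Sy 𝔪 Δs ψ) (k + 1) (Nfun p n (k + 1)))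
      (_ : Realizes B (actH Sy O (Theta Δs ψ (k + 1))) 𝔪
        (fun i => diaLin O (Theta Δs ψ (k + 1)) (dfun dd (k + 1) i)))
      (tw : TWLevelData O ϖ (Sy.𝕋 O) (M0 Sy 𝔪 Δs ψ) (act0 Sy 𝔪 Δs ψ) (ChiBase B c)
        (chiBaseAct B c) k (fun i => Nfun p n (k + 1) i.succ)),
      tw = twLevelDataSelf B (Nfun_pos hp n (k + 1)) ϖ c hc hc1 := by
  obtain ⟨B, ⟨R⟩⟩ := exists_bigLevel Sy 𝔪 Δs ψ ϖ hϖ0 hmax p hp hpϖ hp0 hp2 hp3 n dd hcard hord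
    hoff hneg s0 hτ (k + 1)
  exact ⟨B, R, _, rfl⟩

end GB.B3.Final
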