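/-
GATE-B / GB-B3-CHIMULTI, part 3 (helper24): the R4 (board 5608 §2) twin of helper95's
`Final.exists_twLevelData` — SEVERAL framed primes.  Run helper95's tower with `k` Taylor–Wiles
steps first and the `s` framed steps LAST (so they sit at the indices `Fin.castAdd k v`, newest in
front), and feed the big level to `ChiLevelMulti.twLevelDataMultiSelf`.
-/
import Fermat.Agent.GE8.P3.GB.B3.Final
import Fermat.Agent.GB.B3.ChiLevelMulti
import Fermat.Agent.GE8.P3.Ok3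

/- TWIN (helper24, GE8/P3 generator) of `Fermat.Agent.GB.B3.FinalMulti` with `p ≠ 3` relaxed to `Ok3 p N`; everything below lives in the wrapper namespace `Fermat.Agent.GE8.P3`. -/
set_option linter.dupNamespace false
open Fermat Fermat.Agent Fermat.Agent.GB Fermat.Agent.GB.B3 Fermat.Agent.GB.B3.Base Fermat.Agent.GB.B3.ChiLevelMulti Fermat.Agent.GB.B3.EisGamma0 Fermat.Agent.GB.B3.HeckeActH Fermat.Agent.GB.B3.RealLevel Fermat.Agent.GB.B3.TWLevel Fermat.Agent.GM Fermat.Agent.GM.B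

namespace Fermat.Agent.GE8.P3

set_option autoImplicit false
set_option linter.unusedSectionVars false
set_option linter.style.haveILetI false

open scoped MatrixGroups
open CongruenceSubgroup

namespace GB.B3.FinalMulti

open GM.B GB.B3 GB.B3.EisGamma0
  GB.B3.TWLevel GB.B3.RealLevel GB.B3.HeckeActH
  GB.B3.StepInst GB.B3.Tower GB.B3.Base
  GB.B3.Final GB.B3.ChiLevelMulti

variable {N : ℕ} [NeZero N] (Sy : Symbols N)
variable {O : Type} [CommRing O] [IsDomain O] [IsPrincipalIdealRing O] [IsLocalRing O]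
  [IsAdicComplete (IsLocalRing.maximalIdeal O) O] [Module.IsTorsionFree ℤ O]
variable (𝔪 : Ideal (Sy.𝕋 O)) [𝔪.IsMaximal]
variable (Δs : ℕ → Type) [∀ i, CommGroup (Δs i)] [∀ i, Fintype (Δs i)]
  (ψ : ∀ i, (ZMod N)ˣ →* Δs i)

/-- **the B3 package at one Taylor–Wiles set, several framed primes** (`k` Taylor–Wiles steps,
then the `s` framed steps; index `Fin.castAdd k v` = the diamond of the framed step `v`) -/
theorem exists_twLevelDataMulti
    (ϖ : O) (hϖ0 : ϖ ≠ 0) (hmax : IsLocalRing.maximalIdeal O = Ideal.span {ϖ})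
    (p : ℕ) (hp : p.Prime) (hpϖ : (p : O) ∈ Ideal.span {ϖ}) (hp0 : (p : O) ≠ 0)
    (hp2 : p ≠ 2) (hp3 : Ok3 p N) (n : ℕ → ℕ) (dd : ℕ → Gamma0 N)
    (hcard : ∀ i, Fintype.card (Δs i) = p ^ n i)
    (hord : ∀ i, orderOf (ψ i (dUnits N (dd i))) = p ^ n i)
    (hoff : ∀ i j, i ≠ j → ψ i (dUnits N (dd j)) = 1)
    (hneg : ∀ i, ψ i (-1) = 1)
    (s0 : Sy.ι₁) (hτ : tauOf Sy O s0 ∉ 𝔪) (s k : ℕ)
    (c : Fin s → O) (hc : ∀ v, c v ^ Nfun p n (s + k) (Fin.castAdd k v) = 1)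
    (hc1 : ∀ v, (1 : O) - c v ∈ Ideal.span {ϖ}) :
    ∃ (B : FreeLevel O (Sy.𝕋 O) (M0 Sy 𝔪 Δs ψ) (act0 Sy 𝔪 Δs ψ) (s + k) (Nfun p n (s + k)))
      (_ : Realizes B (actH Sy O (Theta Δs ψ (s + k))) 𝔪
        (fun i => diaLin O (Theta Δs ψ (s + k)) (dfun dd (s + k) i)))
      (tw : TWLevelData O ϖ (Sy.𝕋 O) (M0 Sy 𝔪 Δs ψ) (act0 Sy 𝔪 Δs ψ) (ChiBaseM B c)
        (chiBaseActM B c) k (fun i => Nfun p n (s + k) (Fin.natAdd s i))),
      tw = twLevelDataMultiSelf B (Nfun_pos hp n (s + k)) ϖ c hc hc1 := by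
  obtain ⟨B, ⟨R⟩⟩ := exists_bigLevel Sy 𝔪 Δs ψ ϖ hϖ0 hmax p hp hpϖ hp0 hp2 hp3 n dd hcard hord
    hoff hneg s0 hτ (s + k)
  exact ⟨B, R, _, rfl⟩

/-- the exponent at a framed index: step `s + k - 1 - v` of the tower -/
theorem Nfun_castAdd (p : ℕ) (n : ℕ → ℕ) (s k : ℕ) (v : Fin s) :
    Nfun p n (s + k) (Fin.castAdd k v) = p ^ n (s + k - 1 - (v : ℕ)) := by
  rw [Nfun_apply]
  rfl

/-- the exponent at a Taylor–Wiles index: step `k - 1 - i` of the tower -/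
theorem Nfun_natAdd (p : ℕ) (n : ℕ → ℕ) (s k : ℕ) (i : Fin k) :
    Nfun p n (s + k) (Fin.natAdd s i) = p ^ n (k - 1 - (i : ℕ)) := by
  rw [Nfun_apply]
  congr 2
  have := i.isLt
  simp only [Fin.natAdd, Fin.val_mk]
  omega

end GB.B3.FinalMulti
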