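import Mathlib
import Fermat.Agent.GE8.P3.GB.B3.Final
import Fermat.Agent.GB.B3.TWChars
import Fermat.Agent.GB.B3.ChiLevelMulti
import Fermat.Agent.GE8.P3.Ok3

/- TWIN (helper24, GE8/P3 generator) of `Fermat.Agent.GB.B3.FinalTW` with `p ≠ 3` relaxed to `Ok3 p N`; everything below lives in the wrapper namespace `Fermat.Agent.GE8.P3`. -/
set_option linter.dupNamespace false
open Fermat Fermat.Agent Fermat.Agent.GB Fermat.Agent.GB.B3 Fermat.Agent.GB.B3.ChiLevelMulti Fermat.Agent.GB.B3.EisGamma0 Fermat.Agent.GB.B3.HeckeActH Fermat.Agent.GB.B3.RealLevel Fermat.Agent.GB.B3.TWChars Fermat.Agent.GB.B3.TWLevel Fermat.Agent.GM Fermat.Agent.GM.B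

namespace Fermat.Agent.GE8.P3

/-!
GATE-B / B3 (helper95): **the output of B3 in arithmetic form**.

`Final.exists_bigLevel` fed with helper46's `TWChars.PrimeData` (distinct primes `r i ∥ N`, `i < K`,
with `p ^ e i ∣ r i - 1`: the Taylor–Wiles primes first, the framed primes `v ∈ Σ_u` last) and closed
with helper24's `ChiLevelMulti.twLevelDataMultiSelf`.

* `Δs p e i := Multiplicative (ZMod (p ^ e i))`, `instFintypeΔs`;
* `exists_bigLevel_primeData` : the big level with `j` diamonds, realised in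
  `Hom(GammaH (Theta (Δs p e) H.psi j), O)_𝔪`, over the base `Hom(GammaH (Theta … 0), O)_𝔪`
  (`= Hom(Γ₀(N), O)_𝔪`, `BaseGamma0.baseEquiv`);
* `exists_twLevelDataMulti` : `j = s + k` (steps `0, …, k-1` = Taylor–Wiles primes, steps
  `k, …, k+s-1` = framed primes; diamonds of the framed primes = indices `castAdd k v`, newest in
  front) with characters `c v ≡ 1 mod ϖ` of the framed diamonds: the `TWLevelData` of B9.
-/

set_option autoImplicit false
set_option linter.unusedSectionVars false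
set_option linter.style.haveILetI false

open scoped MatrixGroups
open CongruenceSubgroup

namespace GB.B3.FinalTW

open GM.B GB.B3 GB.B3.EisGamma0
  GB.B3.TWLevel GB.B3.RealLevel GB.B3.HeckeActH
  GB.B3.StepInst GB.B3.Tower GB.B3.Final
  GB.B3.TWChars GB.B3.ChiLevelMulti

/-- the cyclic targets of the characters -/
abbrev Δs (p : ℕ) (e : ℕ → ℕ) (i : ℕ) : Type := Multiplicative (ZMod (p ^ e i))

variable {N p : ℕ} [NeZero N] [hpF : Fact p.Prime] {K : ℕ} {r e N' : ℕ → ℕ}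

noncomputable instance instFintypeΔs (i : ℕ) : Fintype (Δs p e i) :=
  haveI : NeZero (p ^ e i) := ⟨pow_ne_zero _ hpF.out.ne_zero⟩
  inferInstanceAs (Fintype (Multiplicative (ZMod (p ^ e i))))

variable (Sy : Symbols N)
variable {O : Type} [CommRing O] [IsDomain O] [IsPrincipalIdealRing O] [IsLocalRing O]
  [IsAdicComplete (IsLocalRing.maximalIdeal O) O] [Module.IsTorsionFree ℤ O]
variable (𝔪 : Ideal (Sy.𝕋 O)) [𝔪.IsMaximal]

/-- **the big Taylor–Wiles level from prime data** -/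
theorem exists_bigLevel_primeData (H : PrimeData N p K r e N')
    (ϖ : O) (hϖ0 : ϖ ≠ 0) (hmax : IsLocalRing.maximalIdeal O = Ideal.span {ϖ})
    (hpϖ : (p : O) ∈ Ideal.span {ϖ}) (hp0 : (p : O) ≠ 0) (hp2 : p ≠ 2) (hp3 : Ok3 p N)
    (s0 : Sy.ι₁) (hτ : tauOf Sy O s0 ∉ 𝔪) (j : ℕ) :
    ∃ B : FreeLevel O (Sy.𝕋 O) (M0 Sy 𝔪 (Δs p e) H.psi) (act0 Sy 𝔪 (Δs p e) H.psi) j
        (Nfun p e j),
      Nonempty (Realizes B (actH Sy O (Theta (Δs p e) H.psi j)) 𝔪
        (fun i => diaLin O (Theta (Δs p e) H.psi j) (dfun (H.dd hpF.out) j i))) := by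
  refine exists_bigLevel Sy 𝔪 (Δs p e) H.psi ϖ hϖ0 hmax p hpF.out hpϖ hp0 hp2 hp3 e
    (H.dd hpF.out) ?_ (H.orderOf_psi_dd hpF.out) (H.psi_dd_of_ne hpF.out)
    (H.psi_neg_one hpF.out hp2) s0 hτ j
  intro i
  rw [← Nat.card_eq_fintype_card]
  exact H.card_target hpF.out i

/-- **the B3 package at one Taylor–Wiles set with `s` framed primes** -/
theorem exists_twLevelDataMulti (H : PrimeData N p K r e N')
    (ϖ : O) (hϖ0 : ϖ ≠ 0) (hmax : IsLocalRing.maximalIdeal O = Ideal.span {ϖ})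
    (hpϖ : (p : O) ∈ Ideal.span {ϖ}) (hp0 : (p : O) ≠ 0) (hp2 : p ≠ 2) (hp3 : Ok3 p N)
    (s0 : Sy.ι₁) (hτ : tauOf Sy O s0 ∉ 𝔪) (s k : ℕ)
    (c : Fin s → O) (hc : ∀ v : Fin s, c v ^ p ^ e (s + k - 1 - v) = 1)
    (hc1 : ∀ v, (1 : O) - c v ∈ Ideal.span {ϖ}) :
    ∃ (B : FreeLevel O (Sy.𝕋 O) (M0 Sy 𝔪 (Δs p e) H.psi) (act0 Sy 𝔪 (Δs p e) H.psi) (s + k)
        (Nfun p e (s + k)))
      (_ : Realizes B (actH Sy O (Theta (Δs p e) H.psi (s + k))) 𝔪
        (fun i => diaLin O (Theta (Δs p e) H.psi (s + k)) (dfun (H.dd hpF.out) (s + k) i)))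
      (hc' : ∀ v : Fin s, c v ^ Nfun p e (s + k) (Fin.castAdd k v) = 1)
      (tw : TWLevelData O ϖ (Sy.𝕋 O) (M0 Sy 𝔪 (Δs p e) H.psi) (act0 Sy 𝔪 (Δs p e) H.psi)
        (ChiBaseM B c) (chiBaseActM B c) k (fun i => Nfun p e (s + k) (Fin.natAdd s i))),
      tw = twLevelDataMultiSelf B (Nfun_pos hpF.out e (s + k)) ϖ c hc' hc1 := by
  obtain ⟨B, ⟨R⟩⟩ := exists_bigLevel_primeData Sy 𝔪 H ϖ hϖ0 hmax hpϖ hp0 hp2 hp3 s0 hτ (s + k)
  have hc' : ∀ v : Fin s, c v ^ Nfun p e (s + k) (Fin.castAdd k v) = 1 := by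
    intro v
    rw [Nfun_apply, Fin.val_castAdd]
    exact hc v
  exact ⟨B, R, hc', _, rfl⟩

end GB.B3.FinalTW
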