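import Mathlib
import Fermat.Agent.GE8.P3.GB.B3.Plug
import Fermat.Agent.GB.B8.LevelIter
import Fermat.Agent.GB.Setup.DPosPlug
import Fermat.Agent.GE8.P3.Ok3

/- TWIN (helper24, GE8/P3 generator) of `Fermat.Agent.GB.B3.PlugD` with `p ≠ 3` relaxed to `Ok3 p N`; everything below lives in the wrapper namespace `Fermat.Agent.GE8.P3`. -/
set_option linter.dupNamespace false
open Fermat Fermat.Agent Fermat.Agent.GB Fermat.Agent.GB.B3 Fermat.Agent.GB.B3.HeckeActH Fermat.Agent.GB.B3.RealLevel Fermat.Agent.GB.B3.TWChars Fermat.Agent.GB.B3.TWLevel Fermat.Agent.GB.B8 Fermat.Agent.GB.B8.LevelGen Fermat.Agent.GB.B8.LevelIter Fermat.Agent.S16_helper49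

namespace Fermat.Agent.GE8.P3

/-!
GATE-B / B3 (helper95): **the `D`-bound and `0 < d` for `Plug.tw`** — the remaining B3-owned
obligations of helper55's `TWSystem` (`level : ∀ n₀, ∃ n ≥ n₀, ∃ d, 0 < d ∧ d ≤ D ∧ …`).

Standing data: as in `Plug` (`Sy : Symbols N`, `H : PrimeData`, `h : Hyp`) plus helper49's
level-lowering data (`GB/B8/LevelIter`): base level `M`, `N = M ∏_{s ∈ Q} pr s`, residual characters
`lamBase lamTop` with the Taylor–Wiles conditions at the symbols of `Q`, and `𝔪 = ker lamTop`.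

* `finrank_locSub_eq` : `finrank O Hom(Γ₀(N), O)_{ker lamTop} = finrank O Hom(Γ₀(M), O)_{ker lamBase}`;
* `tw_d_le` : `(tw …).L1.d ≤ finrank O Hom(Γ₀(M), O)` — the bound `D`, INDEPENDENT of `Q`, `n`;
* `tw_d_pos` : `0 < (tw …).L1.d` as soon as the `ker lamBase`-primary part of `Hom(Γ₀(M), O)` is
  non-zero;
* `isLoc_base_of_good`, `tw_d_pos_of_hres` : … which is helper21's `d_pos` when every symbol is a
  good prime at the base level `M` (`W` residually modular of level `M`).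
-/

set_option autoImplicit false
set_option linter.unusedSectionVars false
set_option linter.style.haveILetI false

open scoped MatrixGroups
open CongruenceSubgroup

namespace GB.B3.PlugD

open MvPolynomial
open GB.B3 GB.B3.TWLevel GB.B3.RealLevel
  GB.B3.HeckeActH GB.B3.TWChars GB.B3.FinalTW
  GB.B8.LevelIter GB.B8.LevelGen

/-! ### the rank of the base of the tower -/

section Rank

variable {N : ℕ} (Sy : Symbols N)
variable {O : Type} [CommRing O] [IsDomain O] [IsPrincipalIdealRing O] [IsLocalRing O]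
  [IsAdicComplete (IsLocalRing.maximalIdeal O) O]
variable {κ : Type} [Field κ] [Algebra O κ]
variable [DecidableEq Sy.ι₁] [DecidableEq Sy.ι₂]

/-- the rank of the base module of the tower is the rank of the `ker lamBase`-primary part at the
base level `M` -/
theorem finrank_locSub_eq (hℓ : Function.Injective Sy.ℓ) (hr : Function.Injective Sy.r)
    (hsurj : Function.Surjective (algebraMap O κ)) (M : ℕ) [NeZero M]
    (lamBase lamTop : Sy.𝕋 O →ₐ[O] κ) (α β : Sy.ι₁ ⊕ Sy.ι₂ → O) (Q : Finset (Sy.ι₁ ⊕ Sy.ι₂))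
    (hN : N = M * ∏ s ∈ Q, prSy Sy s) (hQM : ∀ s ∈ Q, ¬ prSy Sy s ∣ M)
    (hTW : ∀ s ∈ Q, TWCond (prSy Sy) lamBase lamTop α β s)
    (haway : ∀ s, s ∉ Q → lamTop (X s) = lamBase (X s))
    (𝔪 : Ideal (Sy.𝕋 O)) (h𝔪 : 𝔪 = RingHom.ker (lamTop : Sy.𝕋 O →+* κ)) :
    Module.finrank O (Base.locSub (act0 Sy O) 𝔪)
      = Module.finrank O (GB.B8.LevelStage.locSub
          (actN O (prSy Sy) (prSy_prime Sy) M) (RingHom.ker (lamBase : Sy.𝕋 O →+* κ))) := by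
  subst h𝔪
  obtain ⟨e, -⟩ := exists_baseEquiv Sy hℓ hr hsurj M lamBase lamTop α β Q hN hQM hTW haway
  exact (LinearEquiv.finrank_eq e).symm

/-- … hence at most the rank of `Hom(Γ₀(M), O)` -/
theorem finrank_locSub_le (hℓ : Function.Injective Sy.ℓ) (hr : Function.Injective Sy.r)
    (hsurj : Function.Surjective (algebraMap O κ)) (M : ℕ) [NeZero M]
    (lamBase lamTop : Sy.𝕋 O →ₐ[O] κ) (α β : Sy.ι₁ ⊕ Sy.ι₂ → O) (Q : Finset (Sy.ι₁ ⊕ Sy.ι₂))
    (hN : N = M * ∏ s ∈ Q, prSy Sy s) (hQM : ∀ s ∈ Q, ¬ prSy Sy s ∣ M)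
    (hTW : ∀ s ∈ Q, TWCond (prSy Sy) lamBase lamTop α β s)
    (haway : ∀ s, s ∉ Q → lamTop (X s) = lamBase (X s))
    (𝔪 : Ideal (Sy.𝕋 O)) (h𝔪 : 𝔪 = RingHom.ker (lamTop : Sy.𝕋 O →+* κ)) :
    Module.finrank O (Base.locSub (act0 Sy O) 𝔪)
      ≤ Module.finrank O (Additive (Gamma0 M) →+ O) := by
  rw [finrank_locSub_eq Sy hℓ hr hsurj M lamBase lamTop α β Q hN hQM hTW haway 𝔪 h𝔪]
  haveI := finite_hom O M
  exact Submodule.finrank_le _

/-- … and positive when the primary part at the base level is non-zero -/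
theorem finrank_locSub_pos (hℓ : Function.Injective Sy.ℓ) (hr : Function.Injective Sy.r)
    (hsurj : Function.Surjective (algebraMap O κ)) (M : ℕ) [NeZero M]
    (lamBase lamTop : Sy.𝕋 O →ₐ[O] κ) (α β : Sy.ι₁ ⊕ Sy.ι₂ → O) (Q : Finset (Sy.ι₁ ⊕ Sy.ι₂))
    (hN : N = M * ∏ s ∈ Q, prSy Sy s) (hQM : ∀ s ∈ Q, ¬ prSy Sy s ∣ M)
    (hTW : ∀ s ∈ Q, TWCond (prSy Sy) lamBase lamTop α β s)
    (haway : ∀ s, s ∉ Q → lamTop (X s) = lamBase (X s))
    (𝔪 : Ideal (Sy.𝕋 O)) (h𝔪 : 𝔪 = RingHom.ker (lamTop : Sy.𝕋 O →+* κ))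
    (hne : ∃ x : Additive (Gamma0 M) →+ O, x ≠ 0 ∧
      IsLoc (actN O (prSy Sy) (prSy_prime Sy) M) (RingHom.ker (lamBase : Sy.𝕋 O →+* κ)) x) :
    0 < Module.finrank O (Base.locSub (act0 Sy O) 𝔪) := by
  rw [finrank_locSub_eq Sy hℓ hr hsurj M lamBase lamTop α β Q hN hQM hTW haway 𝔪 h𝔪]
  obtain ⟨x, hx0, hx⟩ := hne
  haveI h1 : Module.Finite O (Additive (Gamma0 M) →+ O) := finite_hom O M
  haveI h2 : Module.Free O (Additive (Gamma0 M) →+ O) :=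
    GB.B3.HomFree.homFree_SL2Z (Gamma0 M) O
  set P := GB.B8.LevelStage.locSub
    (actN O (prSy Sy) (prSy_prime Sy) M) (RingHom.ker (lamBase : Sy.𝕋 O →+* κ)) with hP
  haveI h3 : Module.Finite O P := Module.Finite.of_injective P.subtype P.injective_subtype
  haveI h4 : Module.Free O P := by
    obtain ⟨d, ⟨b⟩⟩ := Submodule.nonempty_basis_of_pid
      (Module.Free.chooseBasis O (Additive (Gamma0 M) →+ O)) P
    exact Module.Free.of_basis b
  haveI h5 : Nontrivial P :=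
    ⟨⟨⟨x, hx⟩, 0, fun h0 => hx0 (congrArg Subtype.val h0)⟩⟩
  exact Module.finrank_pos (R := O) (M := P)

end Rank

/-! ### `0 < d` from helper21's `d_pos`: all symbols good at the base level -/

section Good

open S16_helper49

variable {N : ℕ} (Sy : Symbols N)
variable {O : Type} [CommRing O] [IsDomain O] [IsPrincipalIdealRing O] [IsLocalRing O]
  [IsAdicComplete (IsLocalRing.maximalIdeal O) O] [Module.IsTorsionFree ℤ O]
variable {κ : Type} [Field κ] [Algebra O κ]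
variable [DecidableEq Sy.ι₁] [DecidableEq Sy.ι₂]

/-- at a base level `M` prime to all the symbols, the uniform action is by `cohGen` -/
theorem actN_X_eq_cohGen (M : ℕ) [NeZero M] (s : Sy.ι₁ ⊕ Sy.ι₂) (hs : ¬ prSy Sy s ∣ M)
    (φ : Additive (Gamma0 M) →+ O) :
    actN O (prSy Sy) (prSy_prime Sy) M (X s) φ
      = cohGen M O (⟨prSy Sy s, prSy_prime Sy s⟩ : Nat.Primes) φ := by
  rw [actN_X_of_not_dvd O (prSy Sy) (prSy_prime Sy) s hs φ,
    cohGen_of_not_dvd M O (⟨prSy Sy s, prSy_prime Sy s⟩ : Nat.Primes) hs]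

/-- **`d_pos` at the base level** (helper21 `DPosPlug.exists_isLoc_ne_zero`): `W` residually modular
of level `M`, every symbol a prime good for `W`, prime to `M`, `≠ p`, and `lamBase X_s = a_s(W)`. -/
theorem exists_isLoc_base_of_hres (M : ℕ) [NeZero M] {p : ℕ} (hp : p.Prime)
    (W : WeierstrassCurve ℤ) (hres : W.IsResiduallyModularOfLevel p M)
    (hgood : ∀ s, W.IsGoodPrimeFor (prSy Sy s) ∧ ¬ prSy Sy s ∣ M ∧ prSy Sy s ≠ p)
    (hsurj : Function.Surjective (algebraMap O κ)) (lamBase : Sy.𝕋 O →ₐ[O] κ)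
    (hκp : ((p : ℕ) : κ) = 0)
    (hlam : ∀ s, lamBase (X s) = ((W.apOfModel (prSy Sy s) : ℤ) : κ)) :
    ∃ x : Additive (Gamma0 M) →+ O, x ≠ 0 ∧
      IsLoc (actN O (prSy Sy) (prSy_prime Sy) M) (RingHom.ker (lamBase : Sy.𝕋 O →+* κ)) x := by
  haveI := ker_isMaximal hsurj lamBase
  exact GB.Setup.DPosPlug.exists_isLoc_ne_zero
    (fun s => (⟨prSy Sy s, prSy_prime Sy s⟩ : Nat.Primes)) hp W hres hgood
    (actN O (prSy Sy) (prSy_prime Sy) M)
    (fun s φ => actN_X_eq_cohGen Sy M s (hgood s).2.1 φ)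
    (lamBase : Sy.𝕋 O →+* κ) hκp hlam _ rfl

end Good

/-! ### the plug for `Plug.tw` -/

section TW

variable {N p : ℕ} [NeZero N] [hpF : Fact p.Prime] {K : ℕ} {r e N' : ℕ → ℕ}
variable (Sy : Symbols N)
variable {O : Type} [CommRing O] [IsDomain O] [IsPrincipalIdealRing O] [IsLocalRing O]
  [IsAdicComplete (IsLocalRing.maximalIdeal O) O] [Module.IsTorsionFree ℤ O]
variable (𝔪 : Ideal (Sy.𝕋 O)) [𝔪.IsMaximal]
variable (H : PrimeData N p K r e N') {ϖ : O} {s0 : Sy.ι₁} (h : Plug.Hyp Sy 𝔪 p ϖ s0)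
variable (s k : ℕ) (c : Fin s → O) (hc : ∀ v : Fin s, c v ^ p ^ e (s + k - 1 - v) = 1)
  (hc1 : ∀ v, (1 : O) - c v ∈ Ideal.span {ϖ})
variable {κ : Type} [Field κ] [Algebra O κ]
variable [DecidableEq Sy.ι₁] [DecidableEq Sy.ι₂]

/-- **THE BOUND `D`**: the rank of `M¹_Q`, `M^χ_Q` over `O[Δ_Q]` is at most the `O`-rank of
`Hom(Γ₀(M), O)`, `M` the base level (independent of the Taylor–Wiles set and of `n`). -/
theorem tw_d_le (hℓ : Function.Injective Sy.ℓ) (hr : Function.Injective Sy.r)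
    (hsurj : Function.Surjective (algebraMap O κ)) (M : ℕ) [NeZero M]
    (lamBase lamTop : Sy.𝕋 O →ₐ[O] κ) (α β : Sy.ι₁ ⊕ Sy.ι₂ → O) (Q : Finset (Sy.ι₁ ⊕ Sy.ι₂))
    (hN : N = M * ∏ s ∈ Q, prSy Sy s) (hQM : ∀ s ∈ Q, ¬ prSy Sy s ∣ M)
    (hTW : ∀ s ∈ Q, TWCond (prSy Sy) lamBase lamTop α β s)
    (haway : ∀ s, s ∉ Q → lamTop (X s) = lamBase (X s))
    (h𝔪 : 𝔪 = RingHom.ker (lamTop : Sy.𝕋 O →+* κ)) :
    (Plug.tw Sy 𝔪 H h s k c hc hc1).L1.d ≤ Module.finrank O (Additive (Gamma0 M) →+ O) := by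
  rw [Plug.tw_d_eq]
  exact finrank_locSub_le Sy hℓ hr hsurj M lamBase lamTop α β Q hN hQM hTW haway 𝔪 h𝔪

/-- **`0 < d`**, from a non-zero element of the `ker lamBase`-primary part at the base level -/
theorem tw_d_pos (hℓ : Function.Injective Sy.ℓ) (hr : Function.Injective Sy.r)
    (hsurj : Function.Surjective (algebraMap O κ)) (M : ℕ) [NeZero M]
    (lamBase lamTop : Sy.𝕋 O →ₐ[O] κ) (α β : Sy.ι₁ ⊕ Sy.ι₂ → O) (Q : Finset (Sy.ι₁ ⊕ Sy.ι₂))
    (hN : N = M * ∏ s ∈ Q, prSy Sy s) (hQM : ∀ s ∈ Q, ¬ prSy Sy s ∣ M)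
    (hTW : ∀ s ∈ Q, TWCond (prSy Sy) lamBase lamTop α β s)
    (haway : ∀ s, s ∉ Q → lamTop (X s) = lamBase (X s))
    (h𝔪 : 𝔪 = RingHom.ker (lamTop : Sy.𝕋 O →+* κ))
    (hne : ∃ x : Additive (Gamma0 M) →+ O, x ≠ 0 ∧
      IsLoc (actN O (prSy Sy) (prSy_prime Sy) M) (RingHom.ker (lamBase : Sy.𝕋 O →+* κ)) x) :
    0 < (Plug.tw Sy 𝔪 H h s k c hc hc1).L1.d := by
  rw [Plug.tw_d_eq]
  exact finrank_locSub_pos Sy hℓ hr hsurj M lamBase lamTop α β Q hN hQM hTW haway 𝔪 h𝔪 hne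

/-- **`0 < d`**, from `W` residually modular of level `M` when every symbol is good at level `M` -/
theorem tw_d_pos_of_hres (hℓ : Function.Injective Sy.ℓ) (hr : Function.Injective Sy.r)
    (hsurj : Function.Surjective (algebraMap O κ)) (M : ℕ) [NeZero M]
    (lamBase lamTop : Sy.𝕋 O →ₐ[O] κ) (α β : Sy.ι₁ ⊕ Sy.ι₂ → O) (Q : Finset (Sy.ι₁ ⊕ Sy.ι₂))
    (hN : N = M * ∏ s ∈ Q, prSy Sy s) (hQM : ∀ s ∈ Q, ¬ prSy Sy s ∣ M)
    (hTW : ∀ s ∈ Q, TWCond (prSy Sy) lamBase lamTop α β s)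
    (haway : ∀ s, s ∉ Q → lamTop (X s) = lamBase (X s))
    (h𝔪 : 𝔪 = RingHom.ker (lamTop : Sy.𝕋 O →+* κ))
    (W : WeierstrassCurve ℤ) (hres : W.IsResiduallyModularOfLevel p M)
    (hgood : ∀ s, W.IsGoodPrimeFor (prSy Sy s) ∧ ¬ prSy Sy s ∣ M ∧ prSy Sy s ≠ p)
    (hκp : ((p : ℕ) : κ) = 0)
    (hlam : ∀ s, lamBase (X s) = ((W.apOfModel (prSy Sy s) : ℤ) : κ)) :
    0 < (Plug.tw Sy 𝔪 H h s k c hc hc1).L1.d :=
  tw_d_pos Sy 𝔪 H h s k c hc hc1 hℓ hr hsurj M lamBase lamTop α β Q hN hQM hTW haway h𝔪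
    (exists_isLoc_base_of_hres Sy M hpF.out W hres hgood hsurj lamBase hκp hlam)

end TW

end GB.B3.PlugD
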