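import Mathlib
import Fermat.Agent.GE8.P3.GB.B3.PlugZero
import Fermat.Agent.GE8.P3.Ok3

/- TWIN (helper24, GE8/P3 generator) of `Fermat.Agent.GB.B3.LocTransport` with `p ≠ 3` relaxed to `Ok3 p N`; everything below lives in the wrapper namespace `Fermat.Agent.GE8.P3`. -/
set_option linter.dupNamespace false
open Fermat Fermat.Agent Fermat.Agent.GB Fermat.Agent.GB.B3 Fermat.Agent.GB.B3.EisGamma0 Fermat.Agent.GB.B3.HeckeActH Fermat.Agent.GB.B3.RealLevel Fermat.Agent.GB.B3.TWChars Fermat.Agent.GB.B3.TWLevel Fermat.Agent.GM Fermat.Agent.GM.B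

namespace Fermat.Agent.GE8.P3

/-!
GATE-B / B3 (helper95): **transport of the primary part along Hecke-equivariant maps**
(helper32 5850 (L2), helper15 5901 (L2-eq)).

* `isLoc_map` : an additive map `D : L → L'` with `D ∘ act t = act' t ∘ D` carries the `𝔪`-primary
  part of `L` into the `𝔪`-primary part of `L'`;
* `equivariant_of_X` : for `A = O[X_s]` it suffices that `D` is `O`-homogeneous and commutes with
  the generators `X_s`;
* `Symbols.restrict` : Hecke symbols at level `N * q` whose `U`-primes divide `N` are Hecke symbols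
  at level `N` (SAME index types, hence the SAME symbol algebra `Sy.𝕋 O`);
* `actH_equivariant` : a degeneracy map `D : Hom(Γ_H(θ), O) → Hom(Γ_H(θ'), O)` (level `N q → N`)
  commuting with all `T_ℓ` and `U_r` of the symbols is equivariant for `actH`;
* `isLoc_degeneracy`, `degeneracy_eq_zero` : … hence carries `IsLoc` to `IsLoc`, and kills the
  `𝔪`-primary part as soon as the `𝔪`-primary part at level `N` vanishes;
* `degeneracy_eq_zero_of_tower` : the same when the target is a stage of the B3 tower over a base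
  `Hom(Γ₀(N), O)_𝔪 = 0` (`PlugZero.isLoc_eq_zero`).
-/

set_option autoImplicit false
set_option linter.unusedSectionVars false
set_option linter.style.haveILetI false

open scoped MatrixGroups
open CongruenceSubgroup

namespace GB.B3.LocTransport

open MvPolynomial
open GM.B GB.B3 GB.B3.EisGamma0
  GB.B3.TWLevel GB.B3.RealLevel
  GB.B3.HeckeActH GB.B3.TWChars GB.B3.FinalTW
  GB.B3.Tower GB.B3.StepInst

/-! ### abstract transport -/

section Abstract

variable {O : Type*} [CommRing O] {A : Type*} [CommRing A] [Algebra O A]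
  {L L' : Type*} [AddCommGroup L] [Module O L] [AddCommGroup L'] [Module O L']

/-- an equivariant additive map carries the `𝔪`-primary part into the `𝔪`-primary part -/
theorem isLoc_map (act : A →ₐ[O] Module.End O L) (act' : A →ₐ[O] Module.End O L') (D : L →+ L')
    (hD : ∀ t x, D (act t x) = act' t (D x)) (𝔪 : Ideal A) {x : L} (hx : IsLoc act 𝔪 x) :
    IsLoc act' 𝔪 (D x) := by
  intro s hs
  obtain ⟨y, hy⟩ := hx s hs
  exact ⟨D y, by rw [← hD, hy]⟩

/-- … so it kills the `𝔪`-primary part when the `𝔪`-primary part of the target vanishes -/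
theorem map_eq_zero_of_isLoc (act : A →ₐ[O] Module.End O L) (act' : A →ₐ[O] Module.End O L')
    (D : L →+ L') (hD : ∀ t x, D (act t x) = act' t (D x)) (𝔪 : Ideal A)
    (hzero : ∀ y : L', IsLoc act' 𝔪 y → y = 0) {x : L} (hx : IsLoc act 𝔪 x) : D x = 0 :=
  hzero _ (isLoc_map act act' D hD 𝔪 hx)

/-- equivariance on the generators of a polynomial algebra suffices -/
theorem equivariant_of_X {σ : Type*} (act : MvPolynomial σ O →ₐ[O] Module.End O L)
    (act' : MvPolynomial σ O →ₐ[O] Module.End O L') (D : L →+ L')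
    (hsmul : ∀ (c : O) x, D (c • x) = c • D x)
    (hX : ∀ s x, D (act (X s) x) = act' (X s) (D x)) (t : MvPolynomial σ O) (x : L) :
    D (act t x) = act' t (D x) := by
  induction t using MvPolynomial.induction_on generalizing x with
  | C a =>
    rw [← MvPolynomial.algebraMap_eq, AlgHom.commutes, AlgHom.commutes, Module.algebraMap_end_apply,
      Module.algebraMap_end_apply, hsmul]
  | add p q hp hq =>
    rw [map_add, map_add, LinearMap.add_apply, LinearMap.add_apply, map_add, hp, hq]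
  | mul_X p s hp =>
    rw [map_mul, map_mul, Module.End.mul_apply, Module.End.mul_apply, hp, hX]

end Abstract

/-! ### restriction of the symbols to a lower level -/

section Restrict

variable {N q : ℕ}

/-- a good prime at level `N * q` is a good prime at level `N` -/
theorem not_dvd_left (Sy : Symbols (N * q)) (i : Sy.ι₁) : ¬ Sy.ℓ i ∣ N :=
  fun h => Sy.hℓN i (Dvd.dvd.mul_right h q)

/-- Hecke symbols at level `N * q` with all `U`-primes dividing `N`, as Hecke symbols at level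
`N` — the SAME index types, hence the same symbol algebra -/
def restrict (Sy : Symbols (N * q)) (hrN : ∀ j, Sy.r j ∣ N) : Symbols N where
  ι₁ := Sy.ι₁
  ι₂ := Sy.ι₂
  ℓ := Sy.ℓ
  hℓ := Sy.hℓ
  hℓN := not_dvd_left Sy
  r := Sy.r
  hr := Sy.hr
  hrN := hrN

variable (Sy : Symbols (N * q)) (hrN : ∀ j, Sy.r j ∣ N)

@[simp] theorem restrict_ℓ (i : Sy.ι₁) : (restrict Sy hrN).ℓ i = Sy.ℓ i := rfl

@[simp] theorem restrict_r (j : Sy.ι₂) : (restrict Sy hrN).r j = Sy.r j := rfl

variable {Δ : Type} [CommGroup Δ] (θ : (ZMod (N * q))ˣ →* Δ)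
variable {Δ' : Type} [CommGroup Δ'] (θ' : (ZMod N)ˣ →* Δ')
variable {O : Type} [CommRing O]

/-- a degeneracy map commuting with the `T_ℓ`, `U_r` of the symbols is `actH`-equivariant -/
theorem actH_equivariant
    (D : (Additive (GamH.GammaH θ) →+ O) →+ (Additive (GamH.GammaH θ') →+ O))
    (hsmul : ∀ (c : O) ν, D (c • ν) = c • D ν)
    (hT : ∀ (i : Sy.ι₁) ν, haveI := Sy.factℓ i
      D (GamH.TH θ O (Sy.hℓN i) ν) = GamH.TH θ' O (not_dvd_left Sy i) (D ν))
    (hU : ∀ (j : Sy.ι₂) ν, haveI := Sy.neZeroR j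
      D (GamH.UH θ O (Sy.hrN j) ν) = GamH.UH θ' O (hrN j) (D ν))
    (t : Sy.𝕋 O) (ν : Additive (GamH.GammaH θ) →+ O) :
    D (actH Sy O θ t ν) = actH (restrict Sy hrN) O θ' t (D ν) := by
  refine equivariant_of_X (actH Sy O θ) (actH (restrict Sy hrN) O θ') D hsmul ?_ t ν
  rintro (i | j) x
  · haveI := Sy.factℓ i
    rw [actH_X_inl, hT i x]
    exact (actH_X_inl (restrict Sy hrN) O θ' i (D x)).symm
  · haveI := Sy.neZeroR j
    rw [actH_X_inr, hU j x]
    exact (actH_X_inr (restrict Sy hrN) O θ' j (D x)).symm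

/-- **(L2-eq)**: such a degeneracy map carries `IsLoc` to `IsLoc` -/
theorem isLoc_degeneracy
    (D : (Additive (GamH.GammaH θ) →+ O) →+ (Additive (GamH.GammaH θ') →+ O))
    (hsmul : ∀ (c : O) ν, D (c • ν) = c • D ν)
    (hT : ∀ (i : Sy.ι₁) ν, haveI := Sy.factℓ i
      D (GamH.TH θ O (Sy.hℓN i) ν) = GamH.TH θ' O (not_dvd_left Sy i) (D ν))
    (hU : ∀ (j : Sy.ι₂) ν, haveI := Sy.neZeroR j
      D (GamH.UH θ O (Sy.hrN j) ν) = GamH.UH θ' O (hrN j) (D ν))
    (𝔪 : Ideal (Sy.𝕋 O)) {x : Additive (GamH.GammaH θ) →+ O} (hx : IsLoc (actH Sy O θ) 𝔪 x) :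
    IsLoc (actH (restrict Sy hrN) O θ') 𝔪 (D x) :=
  isLoc_map (actH Sy O θ) (actH (restrict Sy hrN) O θ') D
    (actH_equivariant Sy hrN θ θ' D hsmul hT hU) 𝔪 hx

/-- … and kills the `𝔪`-primary part when the `𝔪`-primary part at level `N` vanishes -/
theorem degeneracy_eq_zero
    (D : (Additive (GamH.GammaH θ) →+ O) →+ (Additive (GamH.GammaH θ') →+ O))
    (hsmul : ∀ (c : O) ν, D (c • ν) = c • D ν)
    (hT : ∀ (i : Sy.ι₁) ν, haveI := Sy.factℓ i
      D (GamH.TH θ O (Sy.hℓN i) ν) = GamH.TH θ' O (not_dvd_left Sy i) (D ν))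
    (hU : ∀ (j : Sy.ι₂) ν, haveI := Sy.neZeroR j
      D (GamH.UH θ O (Sy.hrN j) ν) = GamH.UH θ' O (hrN j) (D ν))
    (𝔪 : Ideal (Sy.𝕋 O))
    (hzero : ∀ y : Additive (GamH.GammaH θ') →+ O,
      IsLoc (actH (restrict Sy hrN) O θ') 𝔪 y → y = 0)
    {x : Additive (GamH.GammaH θ) →+ O} (hx : IsLoc (actH Sy O θ) 𝔪 x) : D x = 0 :=
  hzero _ (isLoc_degeneracy Sy hrN θ θ' D hsmul hT hU 𝔪 hx)

end Restrict

/-! ### the tower characters at level `N q` are inflated from level `N` -/

section Inflate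

variable {N q p K : ℕ} [NeZero N] [NeZero (N * q)] {r e N' N'' : ℕ → ℕ}

/-- inflation of a character of `(ℤ/N)ˣ` to `(ℤ/N q)ˣ` (definitionally helper83's `UqSq.thQ`) -/
abbrev infl {Δ : Type} [CommGroup Δ] (θ' : (ZMod N)ˣ →* Δ) (q : ℕ) : (ZMod (N * q))ˣ →* Δ :=
  θ'.comp (ZMod.unitsMap (Nat.dvd_mul_right N q))

/-- the Taylor–Wiles characters at level `N q` are inflated from level `N` -/
theorem psi_eq_infl (H : PrimeData (N * q) p K r e N') (H₀ : PrimeData N p K r e N'') (i : ℕ) :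
    H.psi i = infl (H₀.psi i) q := by
  by_cases hi : i < K
  · rw [H.psi_of_lt i hi, H₀.psi_of_lt i hi]
    haveI : Fact (r i).Prime := ⟨H.prime i hi⟩
    refine MonoidHom.ext fun u => ?_
    rw [psiR_apply, MonoidHom.comp_apply, psiR_apply]
    congr 1
    have h := ZMod.unitsMap_comp (H₀.dvd i hi) (Nat.dvd_mul_right N q)
    exact (congrArg (fun f => f u) h).symm
  · rw [H.psi_of_le i (not_lt.mp hi), H₀.psi_of_le i (not_lt.mp hi)]
    rfl

/-- … hence so is the product character of every stage of the tower -/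
theorem Theta_eq_infl (H : PrimeData (N * q) p K r e N') (H₀ : PrimeData N p K r e N'') (j : ℕ) :
    Theta (Δs p e) H.psi j = infl (Theta (Δs p e) H₀.psi j) q := by
  refine MonoidHom.ext fun u => ?_
  funext i
  rw [Theta_apply, psi_eq_infl H H₀ i]
  rfl

/-- **descent of the prime data** from level `N q` to level `N` (`q` a prime different from the
Taylor–Wiles primes) -/
theorem primeData_descend (hq : q.Prime) (H : PrimeData (N * q) p K r e N')
    (hne : ∀ i, i < K → r i ≠ q) :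
    PrimeData N p K r e (fun i => N / r i) := by
  have hdvd : ∀ i, i < K → r i ∣ N := fun i hi => by
    have h1 : r i ∣ N * q := H.dvd i hi
    have h2 : Nat.Coprime (r i) q := (Nat.coprime_primes (H.prime i hi) hq).mpr (hne i hi)
    exact h2.dvd_of_dvd_mul_right h1
  refine ⟨H.prime, fun i hi => (Nat.mul_div_cancel' (hdvd i hi)).symm, fun i hi => ?_, H.cong,
    H.inj, H.e_out⟩
  -- `N' i = (N / r i) * q`, so coprimality descends
  have h1 : N * q = r i * N' i := H.fact i hi
  have h2 : N = r i * (N / r i) := (Nat.mul_div_cancel' (hdvd i hi)).symm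
  have hpos : 0 < r i := (H.prime i hi).pos
  have h3 : N' i = (N / r i) * q := by
    apply Nat.eq_of_mul_eq_mul_left hpos
    rw [← h1, ← mul_assoc, ← h2]
  have h4 := H.cop i hi
  rw [h3] at h4
  exact Nat.Coprime.coprime_mul_right_right h4

end Inflate

/-! ### the target a stage of the tower over a zero base -/

section Tower

variable {N q p : ℕ} [NeZero N] [hpF : Fact p.Prime] {K : ℕ} {r e N' : ℕ → ℕ}
variable (Sy : Symbols (N * q)) (hrN : ∀ j, Sy.r j ∣ N)
variable {O : Type} [CommRing O] [IsDomain O] [IsPrincipalIdealRing O] [IsLocalRing O]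
  [IsAdicComplete (IsLocalRing.maximalIdeal O) O] [Module.IsTorsionFree ℤ O]
variable (𝔪 : Ideal (Sy.𝕋 O)) [𝔪.IsMaximal]
variable (H : PrimeData N p K r e N') {ϖ : O} {s0 : Sy.ι₁}
  (h : Plug.Hyp (restrict Sy hrN) 𝔪 p ϖ s0)
variable {Δ : Type} [CommGroup Δ] (θ : (ZMod (N * q))ˣ →* Δ)

include h in
/-- **(L1) + (L2-eq)**: if `Hom(Γ₀(N), O)_𝔪 = 0`, every degeneracy map from level `N q` to a stage
`GammaH (Theta j)` of the B3 tower at level `N` which commutes with the `T_ℓ`, `U_r` of the symbols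
kills the `𝔪`-primary part of `Hom(Γ_H(θ), O)`. -/
theorem degeneracy_eq_zero_of_tower
    (hbase : ∀ y : Additive (Gamma0 N) →+ O,
      IsLoc (HeckeActH.act0 (restrict Sy hrN) O) 𝔪 y → y = 0) (j : ℕ)
    (D : (Additive (GamH.GammaH θ) →+ O) →+
      (Additive (GamH.GammaH (Theta (Δs p e) H.psi j)) →+ O))
    (hsmul : ∀ (c : O) ν, D (c • ν) = c • D ν)
    (hT : ∀ (i : Sy.ι₁) ν, haveI := Sy.factℓ i
      D (GamH.TH θ O (Sy.hℓN i) ν)
        = GamH.TH (Theta (Δs p e) H.psi j) O (not_dvd_left Sy i) (D ν))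
    (hU : ∀ (j' : Sy.ι₂) ν, haveI := Sy.neZeroR j'
      D (GamH.UH θ O (Sy.hrN j') ν) = GamH.UH (Theta (Δs p e) H.psi j) O (hrN j') (D ν))
    {x : Additive (GamH.GammaH θ) →+ O} (hx : IsLoc (actH Sy O θ) 𝔪 x) : D x = 0 := by
  have hmax : Ideal.IsMaximal (show Ideal ((restrict Sy hrN).𝕋 O) from 𝔪) := ‹𝔪.IsMaximal›
  exact degeneracy_eq_zero Sy hrN θ (Theta (Δs p e) H.psi j) D hsmul hT hU 𝔪
    (fun y hy => @PlugZero.isLoc_eq_zero N p _ hpF K r e N' (restrict Sy hrN) O _ _ _ _ _ _ 𝔪 hmax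
      H ϖ s0 h hbase j y hy) hx

end Tower

end GB.B3.LocTransport
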