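import Mathlib
import Fermat.Agent.GE8.P3.GB.B3.Plug
import Fermat.Agent.GE8.P3.GB.B3.LocTransport
import Fermat.Agent.GE8.P3.Ok3

/- TWIN (helper24, GE8/P3 generator) of `Fermat.Agent.GB.B3.L1Iso` with `p ≠ 3` relaxed to `Ok3 p N`; everything below lives in the wrapper namespace `Fermat.Agent.GE8.P3`. -/
set_option linter.dupNamespace false
open Fermat Fermat.Agent Fermat.Agent.GB Fermat.Agent.GB.B3 Fermat.Agent.GB.B3.Chi Fermat.Agent.GB.B3.ChiLevelMulti Fermat.Agent.GB.B3.CycInst Fermat.Agent.GB.B3.CycPlug Fermat.Agent.GB.B3.EisGamma0 Fermat.Agent.GB.B3.FreeCyclic Fermat.Agent.GB.B3.HeckeAct Fermat.Agent.GB.B3.HeckeActH Fermat.Agent.GB.B3.Loc Fermat.Agent.GB.B3.Loc2 Fermat.Agent.GB.B3.LocSummand Fermat.Agent.GB.B3.RealLevel Fermat.Agent.GB.B3.StepAbs Fermat.Agent.GB.B3.TWChars Fermat.Agent.GB.B3.TWLevel Fermat.Agent.GM Fermat.Agent.GM.B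

namespace Fermat.Agent.GE8.P3

/-!
GATE-B / B3 (helper95): **`M¹_Q` is the `𝔪`-primary part one stage down** — the seam B3 → B7 (kill₁)
and B4 (`a₁`).

`Plug.tw Sy 𝔪 H h 1 k c hc hc1` has `L1.M = P_big ⧸ (D_q - 1) P_big`, `P_big ⊆ Hom(Γ_H(θ_big), O)` the
`𝔪`-primary part at `θ_big = Theta (1 + k)` (Taylor–Wiles characters AND the character at the framed
prime `q`), whereas the Hecke algebra of level `L q Q²` with `U_q` (B7) acts on
`Hom(Γ_H(θ_k), O)_𝔪`, `θ_k = Theta k` (`Γ₀` at `q`).  The transfer `coresHH` identifies the two: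

* `dropHom Δs j k hkj` : forgetting the coordinates `≥ k`; `dropHom_comp_Theta` (`rfl`);
  `exists_rep_succ`, `exists_rep_drop` : a section of `χ` over the newest cyclic factor;
* `exists_coinvEquiv_abs` : the abstract statement (`FreeCyclic.CycStep` + `LocSummand`);
* `exists_coinvEquiv_succ` : for ANY level `F'` realised at stage `k + 1`:
  `F'.M ⧸ (D_new - 1) F'.M ≃ₗ[O] Hom(Γ_H(Theta k), O)_𝔪`, `mk x ↦ coresHH (ι x)`;
* `exists_coinvEquiv` : the same at a stage `j = k + 1` given propositionally (for `j = 1 + k`);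
* `exists_L1Equiv`, `L1Equiv`, `L1Equiv_fmk` : the statement for `(Plug.tw … 1 k …).L1`;
  `L1Equiv_transport` (any pair of operators intertwined by `coresHH`), `L1Equiv_act` (Hecke
  symbols), `L1Equiv_D` (Taylor–Wiles diamonds);
* without the section `rep` in the statement: `exists_L1Equiv_act`, `L1EquivC`, `L1EquivC_act`,
  `L1EquivC_D`, **`L1_act_eq_zero`** (a symbol killing `Hom(Γ_H(Theta k), O)_𝔪` kills `M¹_Q`: the
  shape of `kill₁`), `L1_act_eq`, `finrank_locSub_theta`.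
-/

set_option autoImplicit false
set_option linter.unusedSectionVars false
set_option linter.style.haveILetI false

open scoped MatrixGroups
open CongruenceSubgroup

namespace GB.B3.L1Iso

open GM.B GB.B3 GB.B3.EisGamma0
  GB.B3.CycInst GB.B3.CycPlug GB.B3.FreeCyclic
  GB.B3.TWLevel GB.B3.RealLevel GB.B3.HeckeActH
  GB.B3.HeckeAct GB.B3.StepInst GB.B3.Tower
  GB.B3.Chi GB.B3.LocSummand GB.B3.Loc
  GB.B3.Loc2

/-! ### forgetting the last coordinates -/

section Drop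

variable {N : ℕ} (Δs : ℕ → Type) [∀ i, CommGroup (Δs i)] (ψ : ∀ i, (ZMod N)ˣ →* Δs i)

/-- forgetting the coordinates `≥ k` -/
def dropHom (j k : ℕ) (hkj : k ≤ j) : (∀ i : Fin j, Δs i) →* (∀ i : Fin k, Δs i) where
  toFun f i := f (Fin.castLE hkj i)
  map_one' := rfl
  map_mul' _ _ := rfl

theorem dropHom_comp_Theta (j k : ℕ) (hkj : k ≤ j) :
    (dropHom Δs j k hkj).comp (Theta Δs ψ j) = Theta Δs ψ k := rfl

theorem dropHom_succ (k : ℕ) : dropHom Δs (k + 1) k (Nat.le_succ k) = initHom Δs k := rfl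

/-! the arithmetic of the generator `dd k` of the newest cyclic factor -/

variable [NeZero N] (p : ℕ) (n : ℕ → ℕ) (dd : ℕ → Gamma0 N)

theorem chi_dd_mem_ker (hoff : ∀ i j, i ≠ j → ψ i (dUnits N (dd j)) = 1) (k : ℕ) :
    chi (Theta Δs ψ (k + 1)) (dd k) ∈ (initHom Δs k).ker := by
  rw [MonoidHom.mem_ker]
  funext i
  show ψ (Fin.castSucc i) (dUnits N (dd k)) = 1
  exact hoff _ _ (by rw [Fin.val_castSucc]; exact Nat.ne_of_lt i.2)

theorem orderOf_chi_dd (hord : ∀ i, orderOf (ψ i (dUnits N (dd i))) = p ^ n i)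
    (hoff : ∀ i j, i ≠ j → ψ i (dUnits N (dd j)) = 1) (k : ℕ) :
    orderOf (chi (Theta Δs ψ (k + 1)) (dd k)) = p ^ n k := by
  have hval : ∀ (m : ℕ) (i : Fin (k + 1)),
      chi (Theta Δs ψ (k + 1)) (dd m) i = ψ i (dUnits N (dd m)) := fun m i => rfl
  rw [← hord k]
  refine orderOf_eq_orderOf_iff.2 fun m => ?_
  constructor
  · intro h
    have h1 := congrFun h (Fin.last k)
    rw [Pi.pow_apply, hval] at h1
    exact h1
  · intro h
    funext i
    rw [Pi.pow_apply, hval, Pi.one_apply]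
    refine Fin.lastCases ?_ (fun i' => ?_) i
    · exact h
    · rw [hoff _ _ (by rw [Fin.val_castSucc]; exact Nat.ne_of_lt i'.2), one_pow]

theorem card_ker_initHom [∀ i, Fintype (Δs i)] (hcard : ∀ i, Fintype.card (Δs i) = p ^ n i)
    (k : ℕ) [Fintype (initHom Δs k).ker] : Fintype.card (initHom Δs k).ker = p ^ n k := by
  rw [Fintype.card_congr (kerEquiv Δs k), hcard]

/-- a section of `χ` over the newest cyclic factor, by powers of `dd k` -/
theorem exists_rep_succ [∀ i, Fintype (Δs i)] (hcard : ∀ i, Fintype.card (Δs i) = p ^ n i)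
    (hord : ∀ i, orderOf (ψ i (dUnits N (dd i))) = p ^ n i)
    (hoff : ∀ i j, i ≠ j → ψ i (dUnits N (dd j)) = 1) (k : ℕ) [Fintype (initHom Δs k).ker] :
    ∃ rep : (initHom Δs k).ker → Gamma0 N, ∀ δ : (initHom Δs k).ker,
      chi (Theta Δs ψ (k + 1)) (rep δ) = (δ : ∀ i : Fin (k + 1), Δs i) := by
  have hb := pow_bijectiveKK (chi (Theta Δs ψ (k + 1))) (initHom Δs k) (p ^ n k) (dd k)
    (chi_dd_mem_ker Δs ψ dd hoff k) (orderOf_chi_dd Δs ψ p n dd hord hoff k)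
    (card_ker_initHom Δs p n hcard k)
  refine ⟨fun δ => dd k ^ ((hb.2 δ).choose : ℕ), fun δ => ?_⟩
  have h := (hb.2 δ).choose_spec
  show chi (Theta Δs ψ (k + 1)) (dd k ^ ((hb.2 δ).choose : ℕ)) = _
  rw [map_pow]
  exact congrArg Subtype.val h

/-- the same for `dropHom` at a stage `j = k + 1` -/
theorem exists_rep_drop [∀ i, Fintype (Δs i)] (hcard : ∀ i, Fintype.card (Δs i) = p ^ n i)
    (hord : ∀ i, orderOf (ψ i (dUnits N (dd i))) = p ^ n i)
    (hoff : ∀ i j, i ≠ j → ψ i (dUnits N (dd j)) = 1) (k j : ℕ) (hj : j = k + 1) (hkj : k ≤ j)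
    [inst : Fintype (dropHom Δs j k hkj).ker] :
    ∃ rep : (dropHom Δs j k hkj).ker → Gamma0 N, ∀ δ : (dropHom Δs j k hkj).ker,
      chi (Theta Δs ψ j) (rep δ) = (δ : ∀ i : Fin j, Δs i) := by
  subst hj
  exact @exists_rep_succ N Δs _ ψ _ p n dd _ hcard hord hoff k inst

end Drop

/-! ### the abstract statement -/

section Abs

open GB.B3.StepAbs

/-- **coinvariants of one diamond = the primary part one level down**, abstract form: a level `F`
realised as the `𝔪`-primary part of `L`, one of whose diamonds is the operator `D` of a cyclic step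
`CS : L → L0`. -/
theorem exists_coinvEquiv_abs {O : Type} [CommRing O] [IsDomain O] [IsPrincipalIdealRing O]
    [IsLocalRing O] [IsAdicComplete (IsLocalRing.maximalIdeal O) O] {A : Type} [CommRing A]
    [Algebra O A] (𝔪 : Ideal A) [𝔪.IsMaximal] {M0 : Type} [AddCommGroup M0] [Module O M0]
    {act0 : A →ₐ[O] Module.End O M0} {k : ℕ} {N : Fin k → ℕ} (F : FreeLevel O A M0 act0 k N)
    {L L0 : Type} [AddCommGroup L] [Module O L] [Module.Finite O L] [Module.Free O L]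
    [AddCommGroup L0] [Module O L0] [Module.Finite O L0] [Module.Free O L0]
    (actL : A →ₐ[O] Module.End O L) (actL0 : A →ₐ[O] Module.End O L0)
    (E : Fin k → Module.End O L) (R : Realizes F actL 𝔪 E) (q : ℕ) (hq : (q : O) ≠ 0)
    (CS : CycStep O L L0 q) (hD : ∀ a x, CS.D (actL a x) = actL a (CS.D x))
    (hcores : ∀ a x, CS.cores (actL a x) = actL0 a (CS.cores x)) (τ : A) (hτ : τ ∉ 𝔪)
    (ht : ∀ x, CS.t x = actL τ x) (i0 : Fin k) (hi0 : E i0 = CS.D) :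
    ∃ e : (F.M ⧸ chiRange (F.D i0) (1 : O)) ≃ₗ[O] Base.locSub actL0 𝔪,
      ∀ x : F.M, ((e (Submodule.Quotient.mk x) : Base.locSub actL0 𝔪) : L0)
        = CS.cores (R.ι x) := by
  let instL : Module A L := Module.compHom L actL.toRingHom
  have towL : IsScalarTower O A L := ⟨fun o a x => by
    show actL (o • a) x = o • actL a x
    rw [map_smul]
    rfl⟩
  let instL0 : Module A L0 := Module.compHom L0 actL0.toRingHom
  have towL0 : IsScalarTower O A L0 := ⟨fun o a x => by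
    show actL0 (o • a) x = o • actL0 a x
    rw [map_smul]
    rfl⟩
  have hact : ∀ a x, actL a x = a • x := fun _ _ => rfl
  have hact0 : ∀ a x, actL0 a x = a • x := fun _ _ => rfl
  let Z := summandOfLoc CS 𝔪 hD hcores τ hτ ht
  have hmem : ∀ x : F.M, (CS.cores ∘ₗ R.ι) x ∈ Base.locSub actL0 𝔪 := by
    intro x
    have hx : IsLoc actL 𝔪 (R.ι x) := (R.range _).1 ⟨x, rfl⟩
    exact LocTransport.isLoc_map actL actL0 CS.cores.toAddMonoidHom hcores 𝔪 hx
  let c : F.M →ₗ[O] Base.locSub actL0 𝔪 :=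
    LinearMap.codRestrict (Base.locSub actL0 𝔪) (CS.cores ∘ₗ R.ι) hmem
  have hsurj : Function.Surjective c := by
    intro y
    have hy : (y : L0) ∈ Z.P0 := (isLoc_iff_mem_locPart 𝔪 actL0 hact0 _).1 y.2
    obtain ⟨x, hx, hxy⟩ := Z.cores_surjOn hy
    have hx' : IsLoc actL 𝔪 x := (isLoc_iff_mem_locPart 𝔪 actL hact x).2 hx
    obtain ⟨x0, rfl⟩ := (R.range x).2 hx'
    exact ⟨x0, Subtype.ext hxy⟩
  have hker : LinearMap.ker c = chiRange (F.D i0) (1 : O) := by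
    ext x
    rw [LinearMap.mem_ker, mem_chiRange]
    constructor
    · intro h
      have h0 : CS.cores (R.ι x) = 0 := congrArg Subtype.val h
      have hx : R.ι x ∈ Z.P :=
        (isLoc_iff_mem_locPart 𝔪 actL hact _).1 ((R.range _).1 ⟨x, rfl⟩)
      obtain ⟨y, hy, hxy⟩ := Z.ker_cores_on hx h0
      obtain ⟨y0, rfl⟩ := (R.range y).2 ((isLoc_iff_mem_locPart 𝔪 actL hact y).2 hy)
      refine ⟨y0, R.inj ?_⟩
      rw [map_sub, one_smul, R.ι_D, hi0, hxy]
    · rintro ⟨y, rfl⟩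
      apply Subtype.ext
      show CS.cores (R.ι (F.D i0 y - (1 : O) • y)) = 0
      rw [one_smul, map_sub, R.ι_D, hi0, map_sub, CS.cores_D hq, sub_self]
  exact ⟨(Submodule.quotEquivOfEq _ _ hker.symm).trans (c.quotKerEquivOfSurjective hsurj),
    fun x => rfl⟩

end Abs

/-! ### one cyclic step: coinvariants of the newest diamond -/

section Step

variable {N : ℕ} [NeZero N] (Sy : Symbols N)
variable {O : Type} [CommRing O] [IsDomain O] [IsPrincipalIdealRing O] [IsLocalRing O]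
  [IsAdicComplete (IsLocalRing.maximalIdeal O) O] [Module.IsTorsionFree ℤ O]
variable (𝔪 : Ideal (Sy.𝕋 O)) [𝔪.IsMaximal]
variable {M0 : Type} [AddCommGroup M0] [Module O M0] {act0 : Sy.𝕋 O →ₐ[O] Module.End O M0}
variable (Δs : ℕ → Type) [∀ i, CommGroup (Δs i)] [∀ i, Fintype (Δs i)]
  (ψ : ∀ i, (ZMod N)ˣ →* Δs i)

/-- **coinvariants of the newest diamond = the primary part one stage down** -/
theorem exists_coinvEquiv_succ
    (p : ℕ) (hp : p.Prime) (hp0 : (p : O) ≠ 0)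
    (hp2 : p ≠ 2) (hp3 : Ok3 p N) (n : ℕ → ℕ) (dd : ℕ → Gamma0 N)
    (hcard : ∀ i, Fintype.card (Δs i) = p ^ n i)
    (hord : ∀ i, orderOf (ψ i (dUnits N (dd i))) = p ^ n i)
    (hoff : ∀ i j, i ≠ j → ψ i (dUnits N (dd j)) = 1)
    (hneg : ∀ i, ψ i (-1) = 1)
    (s0 : Sy.ι₁) (hτ : tauOf Sy O s0 ∉ 𝔪) (k : ℕ)
    (F' : FreeLevel O (Sy.𝕋 O) M0 act0 (k + 1) (Nfun p n (k + 1)))
    (R' : Realizes F' (actH Sy O (Theta Δs ψ (k + 1))) 𝔪
      (fun i => diaLin O (Theta Δs ψ (k + 1)) (dfun dd (k + 1) i)))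
    [Fintype (initHom Δs k).ker]
    (rep : (initHom Δs k).ker → Gamma0 N)
    (hrep : ∀ δ : (initHom Δs k).ker, chi (Theta Δs ψ (k + 1)) (rep δ) = (δ : ∀ i : Fin (k + 1), Δs i)) :
    ∃ e : (F'.M ⧸ chiRange (F'.D 0) (1 : O)) ≃ₗ[O]
        Base.locSub (actH Sy O (Theta Δs ψ k)) 𝔪,
      ∀ x : F'.M,
        ((e (Submodule.Quotient.mk x) : Base.locSub (actH Sy O (Theta Δs ψ k)) 𝔪) :
            Additive (GamH.GammaH (Theta Δs ψ k)) →+ O)
          = GamH.coresHH (Theta Δs ψ (k + 1)) (initHom Δs k) rep hrep O (R'.ι x) := by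
  classical
  haveI := Sy.factℓ s0
  haveI hfi : (GamH.GammaH (Theta Δs ψ (k + 1))).FiniteIndex :=
    finiteIndex_GammaH (Theta Δs ψ (k + 1))
  haveI hfi' : (GamH.GammaH ((initHom Δs k).comp (Theta Δs ψ (k + 1)))).FiniteIndex :=
    finiteIndex_GammaH ((initHom Δs k).comp (Theta Δs ψ (k + 1)))
  haveI : Fintype (SL(2, ℤ) ⧸ kerSub (chi (Theta Δs ψ (k + 1)))) :=
    (GamH.GammaH (Theta Δs ψ (k + 1))).fintypeQuotientOfFiniteIndex
  haveI : Fintype (SL(2, ℤ) ⧸ kerSub ((initHom Δs k).comp (chi (Theta Δs ψ (k + 1))))) :=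
    (GamH.GammaH ((initHom Δs k).comp (Theta Δs ψ (k + 1)))).fintypeQuotientOfFiniteIndex
  haveI : Module.Finite O (Additive (GamH.GammaH (Theta Δs ψ (k + 1))) →+ O) :=
    HomFree.homFinite_SL2Z (GamH.GammaH (Theta Δs ψ (k + 1))) O
  haveI : Module.Free O (Additive (GamH.GammaH (Theta Δs ψ (k + 1))) →+ O) :=
    HomFree.homFree_SL2Z (GamH.GammaH (Theta Δs ψ (k + 1))) O
  haveI : Module.Finite O
      (Additive (GamH.GammaH ((initHom Δs k).comp (Theta Δs ψ (k + 1)))) →+ O) :=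
    HomFree.homFinite_SL2Z (GamH.GammaH ((initHom Δs k).comp (Theta Δs ψ (k + 1)))) O
  haveI : Module.Free O
      (Additive (GamH.GammaH ((initHom Δs k).comp (Theta Δs ψ (k + 1)))) →+ O) :=
    HomFree.homFree_SL2Z (GamH.GammaH ((initHom Δs k).comp (Theta Δs ψ (k + 1)))) O
  have hcardk := card_ker_initHom Δs p n hcard k
  have hd0 := chi_dd_mem_ker Δs ψ dd hoff k
  have hordk := orderOf_chi_dd Δs ψ p n dd hord hoff k
  have hnegk : Theta Δs ψ (k + 1) (-1) = 1 := by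
    funext i
    exact hneg i
  have hq : ((p ^ n k : ℕ) : O) ≠ 0 := by
    rw [Nat.cast_pow]
    exact pow_ne_zero _ hp0
  have hq' : ∀ a : O, ((p ^ n k : ℕ) : O) * a = 0 → a = 0 := fun a ha =>
    (mul_eq_zero.1 ha).resolve_left hq
  let CS : CycStep O (Additive (GamH.GammaH (Theta Δs ψ (k + 1))) →+ O)
      (Additive (GamH.GammaH ((initHom Δs k).comp (Theta Δs ψ (k + 1)))) →+ O) (p ^ n k) :=
    GE8.CaseB3.CycPlug3.cycStepKKSL3 embR_injective (chi (Theta Δs ψ (k + 1))) (initHom Δs k) rep hrep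
      (GamH.heckeSysD (Sy.hℓN s0)) (GamH.compat_heckeSysD (Theta Δs ψ (k + 1)) (Sy.hℓN s0)) O
      (p ^ n k) (dd k) hd0 hordk hcardk hq' (neg_one_mem_GammaH (Theta Δs ψ (k + 1)) hnegk)
      (not_dvd_prime_pow hp Nat.prime_two hp2 _) (Ok3.step hp hp3 _)
  have hDeq : CS.D = diaLin O (Theta Δs ψ (k + 1)) (dd k) := rfl
  exact exists_coinvEquiv_abs 𝔪 F' (actH Sy O (Theta Δs ψ (k + 1)))
    (actH Sy O ((initHom Δs k).comp (Theta Δs ψ (k + 1)))) _ R' (p ^ n k) hq CS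
    (fun a x => diaH_act Sy O (Theta Δs ψ (k + 1)) (dd k) a x)
    (fun a x => coresHH_act Sy O (Theta Δs ψ (k + 1)) (initHom Δs k) rep hrep a x)
    (tauOf Sy O s0) hτ
    (fun x => by
      have h1 : CS.t x = GamH.TH (Theta Δs ψ (k + 1)) O (Sy.hℓN s0) x
          - Fintype.card (GamH.heckeSysD (N := N) (Sy.hℓN s0)).ι • x := rfl
      rw [h1, tauOf, map_sub, LinearMap.sub_apply, actH_X_inl, actH_C, GamH.heckeSysD_card,
        Nat.cast_smul_eq_nsmul])
    0 (by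
      show diaLin O (Theta Δs ψ (k + 1)) (dfun dd (k + 1) 0) = CS.D
      rw [hDeq, dfun_succ, Fin.cons_zero])

/-- the same at a stage `j = k + 1` given propositionally (for `j = 1 + k`), the newest diamond at
an index `i0` with value `0`, the projection `dropHom Δs j k` -/
theorem exists_coinvEquiv
    (p : ℕ) (hp : p.Prime) (hp0 : (p : O) ≠ 0)
    (hp2 : p ≠ 2) (hp3 : Ok3 p N) (n : ℕ → ℕ) (dd : ℕ → Gamma0 N)
    (hcard : ∀ i, Fintype.card (Δs i) = p ^ n i)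
    (hord : ∀ i, orderOf (ψ i (dUnits N (dd i))) = p ^ n i)
    (hoff : ∀ i j, i ≠ j → ψ i (dUnits N (dd j)) = 1)
    (hneg : ∀ i, ψ i (-1) = 1)
    (s0 : Sy.ι₁) (hτ : tauOf Sy O s0 ∉ 𝔪) (k j : ℕ) (hj : j = k + 1) (hkj : k ≤ j)
    (i0 : Fin j) (hi0 : (i0 : ℕ) = 0)
    (F' : FreeLevel O (Sy.𝕋 O) M0 act0 j (Nfun p n j))
    (R' : Realizes F' (actH Sy O (Theta Δs ψ j)) 𝔪
      (fun i => diaLin O (Theta Δs ψ j) (dfun dd j i)))
    [inst : Fintype (dropHom Δs j k hkj).ker]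
    (rep : (dropHom Δs j k hkj).ker → Gamma0 N)
    (hrep : ∀ δ : (dropHom Δs j k hkj).ker,
      chi (Theta Δs ψ j) (rep δ) = (δ : ∀ i : Fin j, Δs i)) :
    ∃ e : (F'.M ⧸ chiRange (F'.D i0) (1 : O)) ≃ₗ[O]
        Base.locSub (actH Sy O (Theta Δs ψ k)) 𝔪,
      ∀ x : F'.M,
        ((e (Submodule.Quotient.mk x) : Base.locSub (actH Sy O (Theta Δs ψ k)) 𝔪) :
            Additive (GamH.GammaH (Theta Δs ψ k)) →+ O)
          = GamH.coresHH (Theta Δs ψ j) (dropHom Δs j k hkj) rep hrep O (R'.ι x) := by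
  subst hj
  obtain rfl : i0 = 0 := Fin.ext hi0
  exact @exists_coinvEquiv_succ N _ Sy O _ _ _ _ _ _ 𝔪 _ M0 _ _ act0 Δs _ _ ψ p hp hp0 hp2 hp3 n dd
    hcard hord hoff hneg s0 hτ k F' R' inst rep hrep

end Step

/-! ### the statement for `Plug.tw` with ONE framed prime -/

section Fam

variable {O P : Type*} [CommRing O] [AddCommGroup P] [Module O P]

open GB.B3.ChiLevelMulti in
/-- a family of ONE operator -/
theorem famRange_fin_one (D₀ : Fin 1 → Module.End O P) (c : Fin 1 → O) :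
    famRange D₀ c = chiRange (D₀ 0) (c 0) := by
  unfold famRange
  exact iSup_unique (f := fun v => chiRange (D₀ v) (c v))

end Fam

theorem dfun_natAdd_one {N : ℕ} (dd : ℕ → Gamma0 N) (k : ℕ) (i : Fin k) :
    dfun dd (1 + k) (Fin.natAdd 1 i) = dfun dd k i := by
  rw [dfun_apply, dfun_apply, Fin.val_natAdd]
  congr 1
  omega

section Final

open GB.B3.Final GB.B3.TWChars GB.B3.ChiLevelMulti
  GB.B3.FinalTW GB.B3.Plug

variable {N p : ℕ} [NeZero N] [hpF : Fact p.Prime] {K : ℕ} {r e N' : ℕ → ℕ}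
variable (Sy : Symbols N)
variable {O : Type} [CommRing O] [IsDomain O] [IsPrincipalIdealRing O] [IsLocalRing O]
  [IsAdicComplete (IsLocalRing.maximalIdeal O) O] [Module.IsTorsionFree ℤ O]
variable (𝔪 : Ideal (Sy.𝕋 O)) [𝔪.IsMaximal]
variable (H : PrimeData N p K r e N') {ϖ : O} {s0 : Sy.ι₁} (h : Hyp Sy 𝔪 p ϖ s0)
variable (k : ℕ) (c : Fin 1 → O) (hc : ∀ v : Fin 1, c v ^ p ^ e (1 + k - 1 - v) = 1)
  (hc1 : ∀ v, (1 : O) - c v ∈ Ideal.span {ϖ})

section Rep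

variable [inst : Fintype (dropHom (Δs p e) (1 + k) k (Nat.le_add_left k 1)).ker]
  (rep : (dropHom (Δs p e) (1 + k) k (Nat.le_add_left k 1)).ker → Gamma0 N)
  (hrep : ∀ δ : (dropHom (Δs p e) (1 + k) k (Nat.le_add_left k 1)).ker,
    chi (Theta (Δs p e) H.psi (1 + k)) (rep δ) = (δ : ∀ i : Fin (1 + k), Δs p e i))

/-- **`M¹_Q ≃ Hom(Γ_H(Theta k), O)_𝔪`**: the coinvariants of the diamond at the framed prime of the
big level are the `𝔪`-primary part at the stage WITHOUT the character at the framed prime, through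
the transfer. -/
theorem exists_L1Equiv :
    ∃ E : (tw Sy 𝔪 H h 1 k c hc hc1).L1.M ≃ₗ[O]
        Base.locSub (actH Sy O (Theta (Δs p e) H.psi k)) 𝔪,
      ∀ x : (bigLevel Sy 𝔪 H h (1 + k)).M,
        ((E (fmk (frD (bigLevel Sy 𝔪 H h (1 + k))) (fun _ => (1 : O)) x) :
            Base.locSub (actH Sy O (Theta (Δs p e) H.psi k)) 𝔪) :
            Additive (GamH.GammaH (Theta (Δs p e) H.psi k)) →+ O)
          = GamH.coresHH (Theta (Δs p e) H.psi (1 + k))
              (dropHom (Δs p e) (1 + k) k (Nat.le_add_left k 1)) rep hrep O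
              ((bigReal Sy 𝔪 H h (1 + k)).ι x) := by
  have hcardΔ : ∀ i, Fintype.card (Δs p e i) = p ^ e i := by
    intro i
    rw [← Nat.card_eq_fintype_card]
    exact H.card_target hpF.out i
  obtain ⟨e0, he0⟩ := exists_coinvEquiv Sy 𝔪 (Δs p e) H.psi p hpF.out h.hp0 h.hp2 h.hp3 e
    (H.dd hpF.out) hcardΔ (H.orderOf_psi_dd hpF.out) (H.psi_dd_of_ne hpF.out)
    (H.psi_neg_one hpF.out h.hp2) s0 h.hτ k (1 + k) (Nat.add_comm 1 k) (Nat.le_add_left k 1)
    (Fin.castAdd k (0 : Fin 1)) rfl (bigLevel Sy 𝔪 H h (1 + k)) (bigReal Sy 𝔪 H h (1 + k))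
    rep hrep
  exact ⟨(Submodule.quotEquivOfEq _ _
    (famRange_fin_one (frD (bigLevel Sy 𝔪 H h (1 + k))) (fun _ => (1 : O)))).trans e0,
    fun x => he0 x⟩

/-- **THE isomorphism `M¹_Q ≃ Hom(Γ_H(Theta k), O)_𝔪`** -/
noncomputable def L1Equiv :
    (tw Sy 𝔪 H h 1 k c hc hc1).L1.M ≃ₗ[O]
      Base.locSub (actH Sy O (Theta (Δs p e) H.psi k)) 𝔪 :=
  (exists_L1Equiv Sy 𝔪 H h k c hc hc1 rep hrep).choose

theorem L1Equiv_fmk (x : (bigLevel Sy 𝔪 H h (1 + k)).M) :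
    ((L1Equiv Sy 𝔪 H h k c hc hc1 rep hrep
        (fmk (frD (bigLevel Sy 𝔪 H h (1 + k))) (fun _ => (1 : O)) x) :
          Base.locSub (actH Sy O (Theta (Δs p e) H.psi k)) 𝔪) :
          Additive (GamH.GammaH (Theta (Δs p e) H.psi k)) →+ O)
      = GamH.coresHH (Theta (Δs p e) H.psi (1 + k))
          (dropHom (Δs p e) (1 + k) k (Nat.le_add_left k 1)) rep hrep O
          ((bigReal Sy 𝔪 H h (1 + k)).ι x) :=
  (exists_L1Equiv Sy 𝔪 H h k c hc hc1 rep hrep).choose_spec x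

/-- every class of `M¹_Q` is the class of an element of the big level -/
theorem exists_fmk (y : (tw Sy 𝔪 H h 1 k c hc hc1).L1.M) :
    ∃ x : (bigLevel Sy 𝔪 H h (1 + k)).M,
      y = fmk (frD (bigLevel Sy 𝔪 H h (1 + k))) (fun _ => (1 : O)) x := by
  obtain ⟨x, hx⟩ := fmk_surjective (frD (bigLevel Sy 𝔪 H h (1 + k))) (fun _ => (1 : O)) y
  exact ⟨x, hx.symm⟩

/-- **transport of operators**: an operator of `M¹_Q` induced by an operator `fB` of the big
level, which on `Hom(Γ_H(Theta (1 + k)), O)` is `T`, intertwined by the transfer with `T0` -/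
theorem L1Equiv_transport
    (f : (tw Sy 𝔪 H h 1 k c hc hc1).L1.M → (tw Sy 𝔪 H h 1 k c hc hc1).L1.M)
    (fB : (bigLevel Sy 𝔪 H h (1 + k)).M → (bigLevel Sy 𝔪 H h (1 + k)).M)
    (T : (Additive (GamH.GammaH (Theta (Δs p e) H.psi (1 + k))) →+ O) →
      (Additive (GamH.GammaH (Theta (Δs p e) H.psi (1 + k))) →+ O))
    (T0 : (Additive (GamH.GammaH (Theta (Δs p e) H.psi k)) →+ O) →
      (Additive (GamH.GammaH (Theta (Δs p e) H.psi k)) →+ O))
    (hf : ∀ x, f (fmk (frD (bigLevel Sy 𝔪 H h (1 + k))) (fun _ => (1 : O)) x)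
      = fmk (frD (bigLevel Sy 𝔪 H h (1 + k))) (fun _ => (1 : O)) (fB x))
    (hfB : ∀ x, (bigReal Sy 𝔪 H h (1 + k)).ι (fB x) = T ((bigReal Sy 𝔪 H h (1 + k)).ι x))
    (hT : ∀ ψ, GamH.coresHH (Theta (Δs p e) H.psi (1 + k))
        (dropHom (Δs p e) (1 + k) k (Nat.le_add_left k 1)) rep hrep O (T ψ)
      = T0 (GamH.coresHH (Theta (Δs p e) H.psi (1 + k))
        (dropHom (Δs p e) (1 + k) k (Nat.le_add_left k 1)) rep hrep O ψ))
    (y : (tw Sy 𝔪 H h 1 k c hc hc1).L1.M) :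
    ((L1Equiv Sy 𝔪 H h k c hc hc1 rep hrep (f y) :
        Base.locSub (actH Sy O (Theta (Δs p e) H.psi k)) 𝔪) :
        Additive (GamH.GammaH (Theta (Δs p e) H.psi k)) →+ O)
      = T0 ((L1Equiv Sy 𝔪 H h k c hc hc1 rep hrep y :
        Base.locSub (actH Sy O (Theta (Δs p e) H.psi k)) 𝔪) :
        Additive (GamH.GammaH (Theta (Δs p e) H.psi k)) →+ O) := by
  obtain ⟨x, hx⟩ := exists_fmk Sy 𝔪 H h k c hc hc1 y
  subst hx
  have h1 := L1Equiv_fmk Sy 𝔪 H h k c hc hc1 rep hrep (fB x)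
  have h2 := L1Equiv_fmk Sy 𝔪 H h k c hc hc1 rep hrep x
  rw [hf]
  refine h1.trans ?_
  rw [hfB]
  refine (hT _).trans ?_
  exact congrArg T0 h2.symm

/-- **Hecke equivariance**: `L1Equiv` intertwines the Hecke symbols -/
theorem L1Equiv_act (t : Sy.𝕋 O) (y : (tw Sy 𝔪 H h 1 k c hc hc1).L1.M) :
    L1Equiv Sy 𝔪 H h k c hc hc1 rep hrep ((tw Sy 𝔪 H h 1 k c hc hc1).L1.act t y)
      = Base.locSubAct (actH Sy O (Theta (Δs p e) H.psi k)) 𝔪 t
          (L1Equiv Sy 𝔪 H h k c hc hc1 rep hrep y) := by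
  apply Subtype.ext
  refine (L1Equiv_transport Sy 𝔪 H h k c hc hc1 rep hrep
    (fun y => (tw Sy 𝔪 H h 1 k c hc hc1).L1.act t y)
    (fun x => (bigLevel Sy 𝔪 H h (1 + k)).act t x)
    (fun ψ => actH Sy O (Theta (Δs p e) H.psi (1 + k)) t ψ)
    (fun ψ => actH Sy O (Theta (Δs p e) H.psi k) t ψ)
    (fun _ => rfl) (fun x => (bigReal Sy 𝔪 H h (1 + k)).ι_act t x)
    (fun ψ => coresHH_act Sy O (Theta (Δs p e) H.psi (1 + k))
      (dropHom (Δs p e) (1 + k) k (Nat.le_add_left k 1)) rep hrep t ψ) y).trans ?_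
  rfl

/-- **diamond equivariance**: `L1Equiv` intertwines the Taylor–Wiles diamonds -/
theorem L1Equiv_D (i : Fin k) (y : (tw Sy 𝔪 H h 1 k c hc hc1).L1.M) :
    ((L1Equiv Sy 𝔪 H h k c hc hc1 rep hrep ((tw Sy 𝔪 H h 1 k c hc hc1).L1.D i y) :
        Base.locSub (actH Sy O (Theta (Δs p e) H.psi k)) 𝔪) :
        Additive (GamH.GammaH (Theta (Δs p e) H.psi k)) →+ O)
      = diaLin O (Theta (Δs p e) H.psi k) (dfun (H.dd hpF.out) k i)
          ((L1Equiv Sy 𝔪 H h k c hc hc1 rep hrep y :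
            Base.locSub (actH Sy O (Theta (Δs p e) H.psi k)) 𝔪) :
            Additive (GamH.GammaH (Theta (Δs p e) H.psi k)) →+ O) := by
  rw [← dfun_natAdd_one]
  exact L1Equiv_transport Sy 𝔪 H h k c hc hc1 rep hrep
    (fun y => (tw Sy 𝔪 H h 1 k c hc hc1).L1.D i y)
    (fun x => (bigLevel Sy 𝔪 H h (1 + k)).D (Fin.natAdd 1 i) x)
    (fun ψ => diaLin O (Theta (Δs p e) H.psi (1 + k))
      (dfun (H.dd hpF.out) (1 + k) (Fin.natAdd 1 i)) ψ)
    (fun ψ => diaLin O (Theta (Δs p e) H.psi k)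
      (dfun (H.dd hpF.out) (1 + k) (Fin.natAdd 1 i)) ψ)
    (fun _ => rfl) (fun x => (bigReal Sy 𝔪 H h (1 + k)).ι_D (Fin.natAdd 1 i) x)
    (fun ψ => GamH.coresHH_diaH (Theta (Δs p e) H.psi (1 + k))
      (dropHom (Δs p e) (1 + k) k (Nat.le_add_left k 1)) rep hrep
      (dfun (H.dd hpF.out) (1 + k) (Fin.natAdd 1 i)) ψ) y

end Rep

/-! ### corollaries without the section `rep` -/

/-- a section of `χ` over the cyclic factor at the framed prime -/
theorem exists_rep [Fintype (dropHom (Δs p e) (1 + k) k (Nat.le_add_left k 1)).ker] :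
    ∃ rep : (dropHom (Δs p e) (1 + k) k (Nat.le_add_left k 1)).ker → Gamma0 N,
      ∀ δ : (dropHom (Δs p e) (1 + k) k (Nat.le_add_left k 1)).ker,
        chi (Theta (Δs p e) H.psi (1 + k)) (rep δ) = (δ : ∀ i : Fin (1 + k), Δs p e i) := by
  refine exists_rep_drop (Δs p e) H.psi p e (H.dd hpF.out) ?_ (H.orderOf_psi_dd hpF.out)
    (H.psi_dd_of_ne hpF.out) k (1 + k) (Nat.add_comm 1 k) (Nat.le_add_left k 1)
  intro i
  rw [← Nat.card_eq_fintype_card]
  exact H.card_target hpF.out i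

/-- **`M¹_Q ≃ Hom(Γ_H(Theta k), O)_𝔪`, Hecke equivariantly** (no section in the statement) -/
theorem exists_L1Equiv_act :
    ∃ E : (tw Sy 𝔪 H h 1 k c hc hc1).L1.M ≃ₗ[O]
        Base.locSub (actH Sy O (Theta (Δs p e) H.psi k)) 𝔪,
      (∀ (t : Sy.𝕋 O) (y : (tw Sy 𝔪 H h 1 k c hc hc1).L1.M),
        E ((tw Sy 𝔪 H h 1 k c hc hc1).L1.act t y)
          = Base.locSubAct (actH Sy O (Theta (Δs p e) H.psi k)) 𝔪 t (E y)) ∧
      ∀ (i : Fin k) (y : (tw Sy 𝔪 H h 1 k c hc hc1).L1.M),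
        ((E ((tw Sy 𝔪 H h 1 k c hc hc1).L1.D i y) :
            Base.locSub (actH Sy O (Theta (Δs p e) H.psi k)) 𝔪) :
            Additive (GamH.GammaH (Theta (Δs p e) H.psi k)) →+ O)
          = diaLin O (Theta (Δs p e) H.psi k) (dfun (H.dd hpF.out) k i)
              ((E y : Base.locSub (actH Sy O (Theta (Δs p e) H.psi k)) 𝔪) :
                Additive (GamH.GammaH (Theta (Δs p e) H.psi k)) →+ O) := by
  classical
  haveI : Fintype (dropHom (Δs p e) (1 + k) k (Nat.le_add_left k 1)).ker := Fintype.ofFinite _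
  have hex := exists_rep H k
  exact ⟨L1Equiv Sy 𝔪 H h k c hc hc1 hex.choose hex.choose_spec,
    fun t y => L1Equiv_act Sy 𝔪 H h k c hc hc1 hex.choose hex.choose_spec t y,
    fun i y => L1Equiv_D Sy 𝔪 H h k c hc hc1 hex.choose hex.choose_spec i y⟩

/-- **THE isomorphism `M¹_Q ≃ Hom(Γ_H(Theta k), O)_𝔪`**, canonical choice (no section) -/
noncomputable def L1EquivC :
    (tw Sy 𝔪 H h 1 k c hc hc1).L1.M ≃ₗ[O]
      Base.locSub (actH Sy O (Theta (Δs p e) H.psi k)) 𝔪 :=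
  (exists_L1Equiv_act Sy 𝔪 H h k c hc hc1).choose

theorem L1EquivC_act (t : Sy.𝕋 O) (y : (tw Sy 𝔪 H h 1 k c hc hc1).L1.M) :
    L1EquivC Sy 𝔪 H h k c hc hc1 ((tw Sy 𝔪 H h 1 k c hc hc1).L1.act t y)
      = Base.locSubAct (actH Sy O (Theta (Δs p e) H.psi k)) 𝔪 t
          (L1EquivC Sy 𝔪 H h k c hc hc1 y) :=
  (exists_L1Equiv_act Sy 𝔪 H h k c hc hc1).choose_spec.1 t y

theorem L1EquivC_D (i : Fin k) (y : (tw Sy 𝔪 H h 1 k c hc hc1).L1.M) :
    ((L1EquivC Sy 𝔪 H h k c hc hc1 ((tw Sy 𝔪 H h 1 k c hc hc1).L1.D i y) :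
        Base.locSub (actH Sy O (Theta (Δs p e) H.psi k)) 𝔪) :
        Additive (GamH.GammaH (Theta (Δs p e) H.psi k)) →+ O)
      = diaLin O (Theta (Δs p e) H.psi k) (dfun (H.dd hpF.out) k i)
          ((L1EquivC Sy 𝔪 H h k c hc hc1 y :
            Base.locSub (actH Sy O (Theta (Δs p e) H.psi k)) 𝔪) :
            Additive (GamH.GammaH (Theta (Δs p e) H.psi k)) →+ O) :=
  (exists_L1Equiv_act Sy 𝔪 H h k c hc hc1).choose_spec.2 i y

/-- **a Hecke symbol killing `Hom(Γ_H(Theta k), O)_𝔪` kills `M¹_Q`** (the shape of `kill₁`) -/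
theorem L1_act_eq_zero (t : Sy.𝕋 O)
    (ht : ∀ z : Additive (GamH.GammaH (Theta (Δs p e) H.psi k)) →+ O,
      IsLoc (actH Sy O (Theta (Δs p e) H.psi k)) 𝔪 z →
        actH Sy O (Theta (Δs p e) H.psi k) t z = 0) :
    (tw Sy 𝔪 H h 1 k c hc hc1).L1.act t = 0 := by
  refine LinearMap.ext fun y => ?_
  apply (L1EquivC Sy 𝔪 H h k c hc hc1).injective
  refine (L1EquivC_act Sy 𝔪 H h k c hc hc1 t y).trans ?_
  refine Eq.trans ?_ (map_zero (L1EquivC Sy 𝔪 H h k c hc hc1)).symm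
  apply Subtype.ext
  exact ht _ (L1EquivC Sy 𝔪 H h k c hc hc1 y).2

/-- two Hecke symbols which agree on `Hom(Γ_H(Theta k), O)_𝔪` agree on `M¹_Q` -/
theorem L1_act_eq (t t' : Sy.𝕋 O)
    (ht : ∀ z : Additive (GamH.GammaH (Theta (Δs p e) H.psi k)) →+ O,
      IsLoc (actH Sy O (Theta (Δs p e) H.psi k)) 𝔪 z →
        actH Sy O (Theta (Δs p e) H.psi k) t z = actH Sy O (Theta (Δs p e) H.psi k) t' z) :
    (tw Sy 𝔪 H h 1 k c hc hc1).L1.act t = (tw Sy 𝔪 H h 1 k c hc hc1).L1.act t' := by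
  rw [← sub_eq_zero, ← map_sub]
  refine L1_act_eq_zero Sy 𝔪 H h k c hc hc1 (t - t') fun z hz => ?_
  rw [map_sub, LinearMap.sub_apply, ht z hz, sub_self]

/-- the rank of `Hom(Γ_H(Theta k), O)_𝔪`: `M¹_Q` is free of rank `d · ∏ p ^ e_i` over `O` -/
theorem finrank_locSub_theta :
    Module.finrank O (Base.locSub (actH Sy O (Theta (Δs p e) H.psi k)) 𝔪)
      = Module.finrank O (tw Sy 𝔪 H h 1 k c hc hc1).L1.M :=
  (L1EquivC Sy 𝔪 H h k c hc hc1).finrank_eq.symm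

end Final

end GB.B3.L1Iso
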