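import Mathlib
import Fermat.Agent.GE8.P3.GB.B3.L1Iso
import Fermat.Agent.GE8.P3.Ok3

/- TWIN (helper24, GE8/P3 generator) of `Fermat.Agent.GB.B3.L1IsoT` with `p ≠ 3` relaxed to `Ok3 p N`; everything below lives in the wrapper namespace `Fermat.Agent.GE8.P3`. -/
set_option linter.dupNamespace false
open Fermat Fermat.Agent Fermat.Agent.GB Fermat.Agent.GB.B3 Fermat.Agent.GB.B3.ChiLevelMulti Fermat.Agent.GB.B3.EisGamma0 Fermat.Agent.GB.B3.HeckeActH Fermat.Agent.GB.B3.RealLevel Fermat.Agent.GB.B3.TWChars Fermat.Agent.GB.B3.TWLevel Fermat.Agent.GM Fermat.Agent.GM.B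

namespace Fermat.Agent.GE8.P3

/-!
GATE-B / B3 (helper95): **`L1Iso` with a CANONICAL section** — for consumers (B7 `Kill1Asm`) who need
the transport lemma `L1Equiv_transport` without carrying the binders `[Fintype …] rep hrep`:

* `instKer`, `repC H k`, `hrepC H k` : the classical `Fintype` instance on the kernel of
  `dropHom (Δs p e) (1 + k) k`, and a chosen section of `χ` over it (powers of `H.dd k`);
* `L1EquivT Sy 𝔪 H h k c hc hc1 := L1Equiv … (repC H k) (hrepC H k)`, with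
  `L1EquivT_fmk`, **`L1EquivT_transport`** (hypothesis `hT` for ALL sections, as `coresHH_TH`,
  `coresHH_UH`, `coresHH_diaH`, `coresHH_act` provide), `L1EquivT_act`, `L1EquivT_D`.
-/

set_option autoImplicit false
set_option linter.unusedSectionVars false
set_option linter.style.haveILetI false

open scoped MatrixGroups
open CongruenceSubgroup

namespace GB.B3.L1IsoT

open GM.B GB.B3 GB.B3.EisGamma0
  GB.B3.TWLevel GB.B3.RealLevel GB.B3.HeckeActH
  GB.B3.StepInst GB.B3.Tower GB.B3.Final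
  GB.B3.TWChars GB.B3.ChiLevelMulti GB.B3.FinalTW
  GB.B3.Plug GB.B3.L1Iso

variable {N p : ℕ} [NeZero N] [hpF : Fact p.Prime] {K : ℕ} {r e N' : ℕ → ℕ}
variable (Sy : Symbols N)
variable {O : Type} [CommRing O] [IsDomain O] [IsPrincipalIdealRing O] [IsLocalRing O]
  [IsAdicComplete (IsLocalRing.maximalIdeal O) O] [Module.IsTorsionFree ℤ O]
variable (𝔪 : Ideal (Sy.𝕋 O)) [𝔪.IsMaximal]
variable (H : PrimeData N p K r e N') {ϖ : O} {s0 : Sy.ι₁} (h : Hyp Sy 𝔪 p ϖ s0)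
variable (k : ℕ) (c : Fin 1 → O) (hc : ∀ v : Fin 1, c v ^ p ^ e (1 + k - 1 - v) = 1)
  (hc1 : ∀ v, (1 : O) - c v ∈ Ideal.span {ϖ})

/-- the classical `Fintype` structure on the cyclic factor at the framed prime -/
@[reducible] noncomputable def instKer (p : ℕ) [Fact p.Prime] (e : ℕ → ℕ) (k : ℕ) :
    Fintype (dropHom (Δs p e) (1 + k) k (Nat.le_add_left k 1)).ker :=
  Fintype.ofFinite _

/-- a chosen section of `χ` over the cyclic factor at the framed prime -/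
noncomputable def repC : (dropHom (Δs p e) (1 + k) k (Nat.le_add_left k 1)).ker → Gamma0 N :=
  (@exists_rep N p _ hpF K r e N' H k (instKer p e k)).choose

theorem hrepC (δ : (dropHom (Δs p e) (1 + k) k (Nat.le_add_left k 1)).ker) :
    chi (Theta (Δs p e) H.psi (1 + k)) (repC H k δ) = (δ : ∀ i : Fin (1 + k), Δs p e i) :=
  (@exists_rep N p _ hpF K r e N' H k (instKer p e k)).choose_spec δ

/-- **`M¹_Q ≃ Hom(Γ_H(Theta k), O)_𝔪`** with the canonical section -/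
noncomputable def L1EquivT :
    (tw Sy 𝔪 H h 1 k c hc hc1).L1.M ≃ₗ[O]
      Base.locSub (actH Sy O (Theta (Δs p e) H.psi k)) 𝔪 :=
  @L1Equiv N p _ hpF K r e N' Sy O _ _ _ _ _ _ 𝔪 _ H ϖ s0 h k c hc hc1 (instKer p e k) (repC H k)
    (hrepC H k)

/-- the transfer one stage down with the canonical section -/
noncomputable def coresC :
    (Additive (GamH.GammaH (Theta (Δs p e) H.psi (1 + k))) →+ O) →+
      (Additive (GamH.GammaH (Theta (Δs p e) H.psi k)) →+ O) :=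
  @GamH.coresHH N _ _ _ _ (Theta (Δs p e) H.psi (1 + k))
    (dropHom (Δs p e) (1 + k) k (Nat.le_add_left k 1)) (instKer p e k) (repC H k) (hrepC H k) O _

theorem L1EquivT_fmk (x : (bigLevel Sy 𝔪 H h (1 + k)).M) :
    ((L1EquivT Sy 𝔪 H h k c hc hc1
        (fmk (frD (bigLevel Sy 𝔪 H h (1 + k))) (fun _ => (1 : O)) x) :
          Base.locSub (actH Sy O (Theta (Δs p e) H.psi k)) 𝔪) :
          Additive (GamH.GammaH (Theta (Δs p e) H.psi k)) →+ O)
      = coresC (O := O) H k ((bigReal Sy 𝔪 H h (1 + k)).ι x) :=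
  @L1Equiv_fmk N p _ hpF K r e N' Sy O _ _ _ _ _ _ 𝔪 _ H ϖ s0 h k c hc hc1 (instKer p e k)
    (repC H k) (hrepC H k) x

/-- **transport of operators** (`hT` for the canonical transfer `coresC`; it holds for every section
by `GamH.coresHH_TH`, `coresHH_UH`, `coresHH_diaH`, `HeckeActH.coresHH_act`) -/
theorem L1EquivT_transport
    (f : (tw Sy 𝔪 H h 1 k c hc hc1).L1.M → (tw Sy 𝔪 H h 1 k c hc hc1).L1.M)
    (fB : (bigLevel Sy 𝔪 H h (1 + k)).M → (bigLevel Sy 𝔪 H h (1 + k)).M)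
    (T : (Additive (GamH.GammaH (Theta (Δs p e) H.psi (1 + k))) →+ O) →
      (Additive (GamH.GammaH (Theta (Δs p e) H.psi (1 + k))) →+ O))
    (T0 : (Additive (GamH.GammaH (Theta (Δs p e) H.psi k)) →+ O) →
      (Additive (GamH.GammaH (Theta (Δs p e) H.psi k)) →+ O))
    (hf : ∀ x, f (fmk (frD (bigLevel Sy 𝔪 H h (1 + k))) (fun _ => (1 : O)) x)
      = fmk (frD (bigLevel Sy 𝔪 H h (1 + k))) (fun _ => (1 : O)) (fB x))
    (hfB : ∀ x, (bigReal Sy 𝔪 H h (1 + k)).ι (fB x) = T ((bigReal Sy 𝔪 H h (1 + k)).ι x))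
    (hT : ∀ ψ, coresC (O := O) H k (T ψ) = T0 (coresC (O := O) H k ψ))
    (y : (tw Sy 𝔪 H h 1 k c hc hc1).L1.M) :
    ((L1EquivT Sy 𝔪 H h k c hc hc1 (f y) :
        Base.locSub (actH Sy O (Theta (Δs p e) H.psi k)) 𝔪) :
        Additive (GamH.GammaH (Theta (Δs p e) H.psi k)) →+ O)
      = T0 ((L1EquivT Sy 𝔪 H h k c hc hc1 y :
        Base.locSub (actH Sy O (Theta (Δs p e) H.psi k)) 𝔪) :
        Additive (GamH.GammaH (Theta (Δs p e) H.psi k)) →+ O) :=
  @L1Equiv_transport N p _ hpF K r e N' Sy O _ _ _ _ _ _ 𝔪 _ H ϖ s0 h k c hc hc1 (instKer p e k)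
    (repC H k) (hrepC H k) f fB T T0 hf hfB hT y

/-- the canonical transfer commutes with `T_ℓ` -/
theorem coresC_TH {ℓ : ℕ} [Fact ℓ.Prime] (hℓN : ¬ ℓ ∣ N)
    (ψ : Additive (GamH.GammaH (Theta (Δs p e) H.psi (1 + k))) →+ O) :
    coresC (O := O) H k (GamH.TH (Theta (Δs p e) H.psi (1 + k)) O hℓN ψ)
      = GamH.TH (Theta (Δs p e) H.psi k) O hℓN (coresC (O := O) H k ψ) :=
  @GamH.coresHH_TH N _ _ _ _ (Theta (Δs p e) H.psi (1 + k))
    (dropHom (Δs p e) (1 + k) k (Nat.le_add_left k 1)) O _ (instKer p e k) (repC H k) (hrepC H k)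
    ℓ _ hℓN ψ

/-- the canonical transfer commutes with `U_r` -/
theorem coresC_UH {r' : ℕ} [NeZero r'] (hrN : r' ∣ N)
    (ψ : Additive (GamH.GammaH (Theta (Δs p e) H.psi (1 + k))) →+ O) :
    coresC (O := O) H k (GamH.UH (Theta (Δs p e) H.psi (1 + k)) O hrN ψ)
      = GamH.UH (Theta (Δs p e) H.psi k) O hrN (coresC (O := O) H k ψ) :=
  @GamH.coresHH_UH N _ _ _ _ (Theta (Δs p e) H.psi (1 + k))
    (dropHom (Δs p e) (1 + k) k (Nat.le_add_left k 1)) O _ (instKer p e k) (repC H k) (hrepC H k)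
    r' _ hrN ψ

/-- the canonical transfer commutes with the diamonds -/
theorem coresC_diaH (d : Gamma0 N)
    (ψ : Additive (GamH.GammaH (Theta (Δs p e) H.psi (1 + k))) →+ O) :
    coresC (O := O) H k (GamH.diaH (Theta (Δs p e) H.psi (1 + k)) O d ψ)
      = GamH.diaH (Theta (Δs p e) H.psi k) O d (coresC (O := O) H k ψ) :=
  @GamH.coresHH_diaH N _ _ _ _ (Theta (Δs p e) H.psi (1 + k))
    (dropHom (Δs p e) (1 + k) k (Nat.le_add_left k 1)) O _ (instKer p e k) (repC H k) (hrepC H k)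
    d ψ

/-- the canonical transfer commutes with the Hecke symbols -/
theorem coresC_act (t : Sy.𝕋 O)
    (ψ : Additive (GamH.GammaH (Theta (Δs p e) H.psi (1 + k))) →+ O) :
    coresC (O := O) H k (actH Sy O (Theta (Δs p e) H.psi (1 + k)) t ψ)
      = actH Sy O (Theta (Δs p e) H.psi k) t (coresC (O := O) H k ψ) := by
  letI := instKer p e k
  exact coresHH_act Sy O (Theta (Δs p e) H.psi (1 + k))
    (dropHom (Δs p e) (1 + k) k (Nat.le_add_left k 1)) (repC H k) (hrepC H k) t ψ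

/-- **Hecke equivariance** -/
theorem L1EquivT_act (t : Sy.𝕋 O) (y : (tw Sy 𝔪 H h 1 k c hc hc1).L1.M) :
    L1EquivT Sy 𝔪 H h k c hc hc1 ((tw Sy 𝔪 H h 1 k c hc hc1).L1.act t y)
      = Base.locSubAct (actH Sy O (Theta (Δs p e) H.psi k)) 𝔪 t
          (L1EquivT Sy 𝔪 H h k c hc hc1 y) :=
  @L1Equiv_act N p _ hpF K r e N' Sy O _ _ _ _ _ _ 𝔪 _ H ϖ s0 h k c hc hc1 (instKer p e k)
    (repC H k) (hrepC H k) t y

/-- **diamond equivariance** -/
theorem L1EquivT_D (i : Fin k) (y : (tw Sy 𝔪 H h 1 k c hc hc1).L1.M) :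
    ((L1EquivT Sy 𝔪 H h k c hc hc1 ((tw Sy 𝔪 H h 1 k c hc hc1).L1.D i y) :
        Base.locSub (actH Sy O (Theta (Δs p e) H.psi k)) 𝔪) :
        Additive (GamH.GammaH (Theta (Δs p e) H.psi k)) →+ O)
      = diaLin O (Theta (Δs p e) H.psi k) (dfun (H.dd hpF.out) k i)
          ((L1EquivT Sy 𝔪 H h k c hc hc1 y :
            Base.locSub (actH Sy O (Theta (Δs p e) H.psi k)) 𝔪) :
            Additive (GamH.GammaH (Theta (Δs p e) H.psi k)) →+ O) :=
  @L1Equiv_D N p _ hpF K r e N' Sy O _ _ _ _ _ _ 𝔪 _ H ϖ s0 h k c hc hc1 (instKer p e k)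
    (repC H k) (hrepC H k) i y

end GB.B3.L1IsoT
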