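import Mathlib
import Fermat.Agent.GE8.P3.GB.B3.Final
import Fermat.Agent.GB.B3.TWChars
import Fermat.Agent.GE8.P3.Ok3

/- TWIN (helper24, GE8/P3 generator) of `Fermat.Agent.GB.B3.TWPlug` with `p ≠ 3` relaxed to `Ok3 p N`; everything below lives in the wrapper namespace `Fermat.Agent.GE8.P3`. -/
set_option linter.dupNamespace false
open Fermat Fermat.Agent Fermat.Agent.GB Fermat.Agent.GB.B3 Fermat.Agent.GB.B3.Base Fermat.Agent.GB.B3.ChiLevel Fermat.Agent.GB.B3.EisGamma0 Fermat.Agent.GB.B3.HeckeActH Fermat.Agent.GB.B3.RealLevel Fermat.Agent.GB.B3.TWChars Fermat.Agent.GB.B3.TWLevel Fermat.Agent.GM Fermat.Agent.GM.B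

namespace Fermat.Agent.GE8.P3

/-!
# GATE-B / B3 (helper46): the B3 output from the arithmetic of the Taylor–Wiles primes

`TWChars.PrimeData N p k r e N'` (distinct primes `r i ∥ N`, `p ^ e i ∣ r i - 1`, `i < k`) plugged
into helper95's `Final.exists_bigLevel` / `Final.exists_twLevelData`: the characters
`ψ i := H.psi i : (ZMod N)ˣ →* Multiplicative (ZMod (p ^ e i))` and the diamond generators
`dd i := H.dd hp i` satisfy `hcard`, `hord`, `hoff`, `hneg`, so the only hypotheses left are the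
ring-theoretic ones on `O` and the non-Eisenstein condition `tauOf Sy O s0 ∉ 𝔪`.
-/

set_option autoImplicit false
set_option linter.unusedSectionVars false
set_option linter.style.haveILetI false

open scoped MatrixGroups
open CongruenceSubgroup

namespace GB.B3.TWPlug

open GM.B GB.B3 GB.B3.EisGamma0
  GB.B3.TWLevel GB.B3.RealLevel GB.B3.HeckeActH
  GB.B3.StepInst GB.B3.Tower GB.B3.Base
  GB.B3.ChiLevel GB.B3.TWChars

/-- the cyclic targets of the Taylor–Wiles characters -/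
abbrev Del (p : ℕ) (e : ℕ → ℕ) (i : ℕ) : Type := Multiplicative (ZMod (p ^ e i))

/-- the targets are finite (`p ≠ 0`) -/
@[reducible] noncomputable def delFintype {p : ℕ} (hp : p.Prime) (e : ℕ → ℕ) (i : ℕ) : Fintype (Del p e i) :=
  haveI : NeZero (p ^ e i) := ⟨pow_ne_zero _ hp.ne_zero⟩
  inferInstanceAs (Fintype (Multiplicative (ZMod (p ^ e i))))

theorem card_del {p : ℕ} (hp : p.Prime) (e : ℕ → ℕ) (i : ℕ) :
    @Fintype.card (Del p e i) (delFintype hp e i) = p ^ e i := by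
  haveI : NeZero (p ^ e i) := ⟨pow_ne_zero _ hp.ne_zero⟩
  show Fintype.card (Multiplicative (ZMod (p ^ e i))) = p ^ e i
  rw [Fintype.card_multiplicative, ZMod.card]

variable {N : ℕ} [NeZero N] (Sy : Symbols N)
variable {O : Type} [CommRing O] [IsDomain O] [IsPrincipalIdealRing O] [IsLocalRing O]
  [IsAdicComplete (IsLocalRing.maximalIdeal O) O] [Module.IsTorsionFree ℤ O]
variable (𝔪 : Ideal (Sy.𝕋 O)) [𝔪.IsMaximal]
variable {p k : ℕ} {r e N' : ℕ → ℕ} (H : PrimeData N p k r e N')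

/-- **the big Taylor–Wiles level from the arithmetic data** -/
theorem exists_bigLevel_of_primeData
    (ϖ : O) (hϖ0 : ϖ ≠ 0) (hmax : IsLocalRing.maximalIdeal O = Ideal.span {ϖ})
    (hp : p.Prime) (hpϖ : (p : O) ∈ Ideal.span {ϖ}) (hp0 : (p : O) ≠ 0)
    (hp2 : p ≠ 2) (hp3 : Ok3 p N)
    (s0 : Sy.ι₁) (hτ : tauOf Sy O s0 ∉ 𝔪) (j : ℕ) :
    letI : ∀ i, Fintype (Del p e i) := delFintype hp e
    ∃ B : FreeLevel O (Sy.𝕋 O) (Final.M0 Sy 𝔪 (Del p e) H.psi) (Final.act0 Sy 𝔪 (Del p e) H.psi) j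
        (Nfun p e j),
      Nonempty (Realizes B (actH Sy O (Theta (Del p e) H.psi j)) 𝔪
        (fun i => diaLin O (Theta (Del p e) H.psi j) (dfun (H.dd hp) j i))) := by
  letI : ∀ i, Fintype (Del p e i) := delFintype hp e
  exact Final.exists_bigLevel Sy 𝔪 (Del p e) H.psi ϖ hϖ0 hmax p hp hpϖ hp0 hp2 hp3 e (H.dd hp)
    (card_del hp e) (H.orderOf_psi_dd hp) (H.psi_dd_of_ne hp) (H.psi_neg_one hp hp2) s0 hτ j

/-- **the B3 package from the arithmetic data**: `k'` Taylor–Wiles steps, then the `q`-step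
(`= step k'`, of order `p ^ e k'`) -/
theorem exists_twLevelData_of_primeData
    (ϖ : O) (hϖ0 : ϖ ≠ 0) (hmax : IsLocalRing.maximalIdeal O = Ideal.span {ϖ})
    (hp : p.Prime) (hpϖ : (p : O) ∈ Ideal.span {ϖ}) (hp0 : (p : O) ≠ 0)
    (hp2 : p ≠ 2) (hp3 : Ok3 p N)
    (s0 : Sy.ι₁) (hτ : tauOf Sy O s0 ∉ 𝔪) (k' : ℕ)
    (c : O) (hc : c ^ p ^ e k' = 1) (hc1 : (1 : O) - c ∈ Ideal.span {ϖ}) :
    letI : ∀ i, Fintype (Del p e i) := delFintype hp e
    ∃ (B : FreeLevel O (Sy.𝕋 O) (Final.M0 Sy 𝔪 (Del p e) H.psi)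
        (Final.act0 Sy 𝔪 (Del p e) H.psi) (k' + 1) (Nfun p e (k' + 1)))
      (_ : Realizes B (actH Sy O (Theta (Del p e) H.psi (k' + 1))) 𝔪
        (fun i => diaLin O (Theta (Del p e) H.psi (k' + 1)) (dfun (H.dd hp) (k' + 1) i)))
      (tw : TWLevelData O ϖ (Sy.𝕋 O) (Final.M0 Sy 𝔪 (Del p e) H.psi)
        (Final.act0 Sy 𝔪 (Del p e) H.psi) (ChiBase B c) (chiBaseAct B c) k'
        (fun i => Nfun p e (k' + 1) i.succ)),
      tw = twLevelDataSelf B (Final.Nfun_pos hp e (k' + 1)) ϖ c hc hc1 := by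
  letI : ∀ i, Fintype (Del p e i) := delFintype hp e
  exact Final.exists_twLevelData Sy 𝔪 (Del p e) H.psi ϖ hϖ0 hmax p hp hpϖ hp0 hp2 hp3 e (H.dd hp)
    (card_del hp e) (H.orderOf_psi_dd hp) (H.psi_dd_of_ne hp) (H.psi_neg_one hp hp2) s0 hτ k' c hc
    hc1

end GB.B3.TWPlug
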